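import Fermat.Agent.S51.Dbl

/-!
# S51: finiteness and cardinality bounds for the 3- and 5-torsion.
-/

set_option autoImplicit false

namespace Fermat.Agent.S51

open WeierstrassCurve Polynomial

variable {K : Type*} [Field K] [DecidableEq K]

/-- A set of points whose nonzero members have normalized abscissa among the roots of a nonzero
polynomial of degree `≤ d` is finite with at most `2 d + 1` elements. -/
theorem finite_of_xi_roots (E : WeierstrassCurve K) (S : Set E.toAffine.Point) (q : K[X])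
    (hq : q ≠ 0) (d : ℕ) (hd : q.natDegree ≤ d)
    (hS : ∀ P ∈ S, P ≠ 0 → q.IsRoot (xi E P)) : S.Finite ∧ S.ncard ≤ 2 * d + 1 := by
  classical
  have himg : xi E '' (S \ {0}) ⊆ ↑q.roots.toFinset := by
    rintro t ⟨P, ⟨hPS, hP0⟩, rfl⟩
    rw [Finset.mem_coe, Multiset.mem_toFinset, mem_roots hq]
    exact hS P hPS hP0
  have hfimg : (xi E '' (S \ {0})).Finite := (Finset.finite_toSet _).subset himg
  have hfibsub : ∀ P₀ ∈ S \ {0}, ∀ Q ∈ S \ {0}, xi E Q = xi E P₀ → Q = P₀ ∨ Q = -P₀ := by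
    intro P₀ hP₀ Q hQ hxi
    exact (xi_eq_xi_iff E hQ.2 hP₀.2).mp hxi
  have hfib : ∀ t ∈ xi E '' (S \ {0}), ((S \ {0}) ∩ xi E ⁻¹' {t}).Finite := by
    rintro t ⟨P₀, hP₀, rfl⟩
    refine ((Set.finite_singleton (-P₀)).insert P₀).subset ?_
    rintro Q ⟨hQ, hQt⟩
    rcases hfibsub P₀ hP₀ Q hQ hQt with h | h
    · exact Or.inl h
    · exact Or.inr h
  have hS' : (S \ {0}).Finite := Set.Finite.of_finite_fibers (xi E) hfimg hfib
  have hsub : S ⊆ insert 0 (S \ {0}) := by
    intro P hP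
    by_cases h0 : P = 0
    · exact Or.inl h0
    · exact Or.inr ⟨hP, h0⟩
  refine ⟨(hS'.insert 0).subset hsub, ?_⟩
  have h1 : S.ncard ≤ (insert 0 (S \ {0})).ncard := Set.ncard_le_ncard hsub (hS'.insert 0)
  have h2 : (insert 0 (S \ {0})).ncard ≤ (S \ {0}).ncard + 1 := Set.ncard_insert_le _ _
  have h3 : (S \ {0}).ncard = hS'.toFinset.card := Set.ncard_eq_toFinset_card _ hS'
  have h4 : hS'.toFinset.card ≤ 2 * (hS'.toFinset.image (xi E)).card := by
    apply Finset.card_le_mul_card_image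
    intro t ht
    obtain ⟨P₀, hP₀, rfl⟩ := Finset.mem_image.mp ht
    have hP₀' : P₀ ∈ S \ {0} := (Set.Finite.mem_toFinset hS').mp hP₀
    have hsubset : hS'.toFinset.filter (fun Q => xi E Q = xi E P₀) ⊆ {P₀, -P₀} := by
      intro Q hQ
      rw [Finset.mem_filter] at hQ
      have hQ' : Q ∈ S \ {0} := (Set.Finite.mem_toFinset hS').mp hQ.1
      rw [Finset.mem_insert, Finset.mem_singleton]
      exact hfibsub P₀ hP₀' Q hQ' hQ.2
    exact (Finset.card_le_card hsubset).trans Finset.card_le_two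
  have h5 : (hS'.toFinset.image (xi E)).card ≤ q.roots.toFinset.card := by
    apply Finset.card_le_card
    intro t ht
    obtain ⟨P₀, hP₀, rfl⟩ := Finset.mem_image.mp ht
    have hP₀' : P₀ ∈ S \ {0} := (Set.Finite.mem_toFinset hS').mp hP₀
    exact himg ⟨P₀, hP₀', rfl⟩
  have h6 : q.roots.toFinset.card ≤ q.natDegree :=
    (Multiset.toFinset_card_le _).trans (card_roots' q)
  omega

/-- The 3-division polynomial as a polynomial. -/
noncomputable def psi3Poly (A B : K) : K[X] :=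
  3 * X ^ 4 + 6 * C A * X ^ 2 + 12 * C B * X - C A ^ 2

/-- The 5-division polynomial as a polynomial. -/
noncomputable def psi5Poly (A B : K) : K[X] :=
  5 * X ^ 12 + 62 * C A * X ^ 10 + 380 * C B * X ^ 9 - 105 * C A ^ 2 * X ^ 8
    + 240 * C A * C B * X ^ 7 + (-300 * C A ^ 3 - 240 * C B ^ 2) * X ^ 6
    - 696 * C A ^ 2 * C B * X ^ 5 + (-125 * C A ^ 4 - 1920 * C A * C B ^ 2) * X ^ 4
    + (-80 * C A ^ 3 * C B - 1600 * C B ^ 3) * X ^ 3
    + (-50 * C A ^ 5 - 240 * C A ^ 2 * C B ^ 2) * X ^ 2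
    + (-100 * C A ^ 4 * C B - 640 * C A * C B ^ 3) * X
    + (C A ^ 6 - 32 * C A ^ 3 * C B ^ 2 - 256 * C B ^ 4)

omit [DecidableEq K] in
theorem psi3Poly_eval (A B t : K) : (psi3Poly A B).eval t = psi3 A B t := by
  simp [psi3Poly, psi3]

variable [CharZero K]

omit [DecidableEq K] in
theorem psi3Poly_natDegree (A B : K) : (psi3Poly A B).natDegree = 4 := by
  unfold psi3Poly
  compute_degree!

omit [DecidableEq K] in
theorem psi5Poly_natDegree (A B : K) : (psi5Poly A B).natDegree = 12 := by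
  unfold psi5Poly
  compute_degree!

omit [DecidableEq K] in
theorem psi3Poly_ne_zero (A B : K) : psi3Poly A B ≠ 0 := by
  intro h
  have := psi3Poly_natDegree A B
  rw [h] at this
  simp at this

omit [DecidableEq K] in
theorem psi5Poly_ne_zero (A B : K) : psi5Poly A B ≠ 0 := by
  intro h
  have := psi5Poly_natDegree A B
  rw [h] at this
  simp at this

/-- (L3c) -/
theorem three_torsion_finite (E : WeierstrassCurve K) :
    {P : E.toAffine.Point | (3 : ℕ) • P = 0}.Finite ∧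
      {P : E.toAffine.Point | (3 : ℕ) • P = 0}.ncard ≤ 9 := by
  have h := finite_of_xi_roots E {P : E.toAffine.Point | (3 : ℕ) • P = 0}
    (psi3Poly (cA E) (cB E)) (psi3Poly_ne_zero _ _) 4 (psi3Poly_natDegree _ _).le
    (fun P hP hP0 => by
      rw [IsRoot, psi3Poly_eval]
      exact psi3_xi_of_three_nsmul E P hP0 hP)
  exact ⟨h.1, h.2⟩

omit [DecidableEq K] [CharZero K] in
/-- The abscissa `u` of a point of order 5 (with `v` the abscissa of its double) is a root of the
degree-16 polynomial `-ψ₃ ψ₅`. -/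
theorem psi3_mul_psi5_eq_zero (A B u v : K) (h1 : 4 * fpol A B u * v = Npol A B u)
    (h2 : 4 * fpol A B v * u = Npol A B v) :
    (psi3Poly A B * psi5Poly A B).eval u = 0 := by
  have e : (psi3Poly A B * psi5Poly A B).eval u =
      -((Npol A B u) ^ 4 - 2 * A * (Npol A B u) ^ 2 * (4 * fpol A B u) ^ 2
        - 8 * B * (Npol A B u) * (4 * fpol A B u) ^ 3 + A ^ 2 * (4 * fpol A B u) ^ 4
        - 4 * u * (4 * fpol A B u) * ((Npol A B u) ^ 3
          + A * (Npol A B u) * (4 * fpol A B u) ^ 2 + B * (4 * fpol A B u) ^ 3)) := by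
    simp only [psi3Poly, psi5Poly, eval_mul, eval_add, eval_sub, eval_pow, eval_C, eval_X,
      eval_ofNat, eval_neg, Npol, fpol]
    ring
  rw [e, ← h1]
  have e2 : (4 * fpol A B u * v) ^ 4 - 2 * A * (4 * fpol A B u * v) ^ 2 * (4 * fpol A B u) ^ 2
        - 8 * B * (4 * fpol A B u * v) * (4 * fpol A B u) ^ 3 + A ^ 2 * (4 * fpol A B u) ^ 4
        - 4 * u * (4 * fpol A B u) * ((4 * fpol A B u * v) ^ 3
          + A * (4 * fpol A B u * v) * (4 * fpol A B u) ^ 2 + B * (4 * fpol A B u) ^ 3) =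
      (4 * fpol A B u) ^ 4 * (Npol A B v - 4 * fpol A B v * u) := by
    simp only [Npol, fpol]
    ring
  rw [e2, h2, sub_self, mul_zero, neg_zero]

/-- (L5c) -/
theorem five_torsion_finite (E : WeierstrassCurve K) :
    {P : E.toAffine.Point | (5 : ℕ) • P = 0}.Finite ∧
      {P : E.toAffine.Point | (5 : ℕ) • P = 0}.ncard ≤ 33 := by
  have hdeg : (psi3Poly (cA E) (cB E) * psi5Poly (cA E) (cB E)).natDegree ≤ 16 := by
    refine natDegree_mul_le.trans ?_
    rw [psi3Poly_natDegree, psi5Poly_natDegree]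
  have h := finite_of_xi_roots E {P : E.toAffine.Point | (5 : ℕ) • P = 0}
    (psi3Poly (cA E) (cB E) * psi5Poly (cA E) (cB E))
    (mul_ne_zero (psi3Poly_ne_zero _ _) (psi5Poly_ne_zero _ _)) 16 hdeg
    (fun P hP hP0 => by
      obtain ⟨-, h1, h2⟩ := xi_of_five_nsmul E P hP0 hP
      exact psi3_mul_psi5_eq_zero _ _ _ _ h1 h2)
  exact ⟨h.1, h.2⟩

end Fermat.Agent.S51
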