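import Fermat.Agent.S51.Tors
import Fermat.Agent.S51.TorsFin
import Fermat.Prelude.Def_FLTPrelim_ModularRep

set_option autoImplicit false

namespace Fermat.Agent.S51

open WeierstrassCurve WeierstrassCurve.Affine WeierstrassCurve.Affine.Point

theorem isGalois_Qbar : IsGalois ℚ (AlgebraicClosure ℚ) := by
  have h : (DivisionRing.toRatAlgebra : Algebra ℚ (AlgebraicClosure ℚ)) =
      AlgebraicClosure.instAlgebra ℚ := Subsingleton.elim _ _
  rw [h]; infer_instance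

theorem fixed_rat (x : AlgebraicClosure ℚ)
    (h : ∀ σ : AlgebraicClosure ℚ ≃ₐ[ℚ] AlgebraicClosure ℚ, σ x = x) :
    ∃ q : ℚ, algebraMap ℚ (AlgebraicClosure ℚ) q = x :=
  haveI := isGalois_Qbar
  (InfiniteGalois.mem_range_algebraMap_iff_fixed x).mpr h

/-- A proper nonzero submodule of a small `ZMod p`-module is a line. -/
theorem line_of_proper (p : ℕ) [Fact p.Prime] {V : Type*} [AddCommGroup V] [Module (ZMod p) V]
    [Finite V] (hcard : Nat.card V < p ^ 3) (N : Submodule (ZMod p) V) (hbot : N ≠ ⊥)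
    (htop : N ≠ ⊤) :
    ∃ P ∈ N, P ≠ 0 ∧ ∀ Q ∈ N, ∃ k : ℕ, Q = k • P := by
  have : Module.Finite (ZMod p) V := Module.Finite.of_finite
  have hp : 1 < p := (Fact.out : p.Prime).one_lt
  have h1 : Module.finrank (ZMod p) V < 3 := by
    have := Module.natCard_eq_pow_finrank (K := ZMod p) (V := V)
    rw [Nat.card_zmod] at this
    rw [this] at hcard
    exact (Nat.pow_lt_pow_iff_right hp).mp hcard
  have h2 : Module.finrank (ZMod p) N < Module.finrank (ZMod p) V :=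
    Submodule.finrank_lt htop
  have h3 : Module.finrank (ZMod p) N ≠ 0 := by
    intro h0
    exact hbot (Submodule.finrank_eq_zero.mp h0)
  have h4 : Module.finrank (ZMod p) N = 1 := by omega
  obtain ⟨P, hPN, hP0⟩ := Submodule.exists_mem_ne_zero_of_ne_bot hbot
  refine ⟨P, hPN, hP0, fun Q hQ => ?_⟩
  have hP0' : (⟨P, hPN⟩ : N) ≠ 0 := fun h => hP0 (congrArg Subtype.val h)
  obtain ⟨c, hc⟩ := (finrank_eq_one_iff_of_nonzero' (⟨P, hPN⟩ : N) hP0').mp h4 ⟨Q, hQ⟩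
  refine ⟨c.val, ?_⟩
  have hc' : c • P = Q := congrArg Subtype.val hc
  rw [← hc', ← Nat.cast_smul_eq_nsmul (ZMod p), ZMod.natCast_zmod_val]


theorem xi_neg {K : Type*} [Field K] (E : WeierstrassCurve K) (P : E.toAffine.Point) :
    xi E (-P) = xi E P := by
  rcases P with _ | ⟨x, y, h⟩
  · rfl
  · rfl

theorem nsmul_mod_of_nsmul_eq_zero {M : Type*} [AddCommGroup M] (n k : ℕ) (P : M)
    (h : n • P = 0) : k • P = (k % n) • P := by
  conv_lhs => rw [← Nat.mod_add_div k n]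
  rw [add_nsmul, mul_nsmul, h, nsmul_zero, add_zero]

section

variable (W : WeierstrassCurve ℤ)

/-- The curve over `ℚ̄`. -/
noncomputable abbrev EK : WeierstrassCurve (AlgebraicClosure ℚ) :=
  (W.map (Int.castRingHom ℚ)).baseChange (AlgebraicClosure ℚ)

theorem EK_Δ_ne_zero (hΔ : W.Δ ≠ 0) : (EK W).Δ ≠ 0 := by
  simp only [EK, WeierstrassCurve.baseChange, WeierstrassCurve.map_Δ]
  intro h
  apply hΔ
  have h1 : (Int.castRingHom ℚ) W.Δ = 0 :=
    (algebraMap ℚ (AlgebraicClosure ℚ)).injective (by rw [h, _root_.map_zero])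
  simpa using h1

theorem xi_smul (σ : AlgebraicClosure ℚ ≃ₐ[ℚ] AlgebraicClosure ℚ)
    (Q : ((W.map (Int.castRingHom ℚ))⁄(AlgebraicClosure ℚ)).Point) :
    xi (EK W) (σ • Q) = σ (xi (EK W) Q) := by
  rcases Q with _ | ⟨x, y, h⟩
  · change (0 : AlgebraicClosure ℚ) = σ 0
    rw [_root_.map_zero]
  · rw [algEquiv_smul_def, map_some]
    simp only [xi, EK, WeierstrassCurve.baseChange, WeierstrassCurve.map_b₂, map_add, map_div₀,
      AlgEquiv.commutes, map_ofNat, AlgEquiv.coe_toAlgHom] 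


theorem reducible_line (n : ℕ) [Fact n.Prime]
    (hex : ∃ P : ((W.map (Int.castRingHom ℚ))⁄(AlgebraicClosure ℚ)).Point, P ≠ 0 ∧ n • P = 0)
    (hfin : {P : ((W.map (Int.castRingHom ℚ))⁄(AlgebraicClosure ℚ)).Point | n • P = 0}.Finite)
    (hcard :
      {P : ((W.map (Int.castRingHom ℚ))⁄(AlgebraicClosure ℚ)).Point | n • P = 0}.ncard < n ^ 3)
    (hred : ¬ W.ModRepIsIrreducible n) :
    ∃ T : ((W.map (Int.castRingHom ℚ))⁄(AlgebraicClosure ℚ)).Point, T ≠ 0 ∧ n • T = 0 ∧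
      ∀ σ : AlgebraicClosure ℚ ≃ₐ[ℚ] AlgebraicClosure ℚ, ∃ k : ℕ, σ • T = k • T := by
  have hmem : ∀ P : ((W.map (Int.castRingHom ℚ))⁄(AlgebraicClosure ℚ)).Point,
      P ∈ Submodule.torsionBy ℤ ((W.map (Int.castRingHom ℚ))⁄(AlgebraicClosure ℚ)).Point (n : ℤ) ↔
        n • P = 0 := by
    intro P
    rw [Submodule.mem_torsionBy_iff, natCast_zsmul]
  obtain ⟨P₀, hP₀, hnP₀⟩ := hex
  have hnt : Nontrivial
      (Submodule.torsionBy ℤ ((W.map (Int.castRingHom ℚ))⁄(AlgebraicClosure ℚ)).Point (n : ℤ)) :=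
    ⟨⟨⟨P₀, (hmem P₀).mpr hnP₀⟩, 0, fun h => hP₀ (congrArg Subtype.val h)⟩⟩
  unfold WeierstrassCurve.ModRepIsIrreducible GaloisRepIsIrreducible at hred
  push Not at hred
  obtain ⟨N, hstab, hbot, htop⟩ := hred hnt
  have hset : ((Submodule.torsionBy ℤ
      ((W.map (Int.castRingHom ℚ))⁄(AlgebraicClosure ℚ)).Point (n : ℤ) :
        Submodule ℤ ((W.map (Int.castRingHom ℚ))⁄(AlgebraicClosure ℚ)).Point) :
        Set ((W.map (Int.castRingHom ℚ))⁄(AlgebraicClosure ℚ)).Point) =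
      {P | n • P = 0} := by
    ext P
    exact hmem P
  have hfin2 : ((Submodule.torsionBy ℤ
      ((W.map (Int.castRingHom ℚ))⁄(AlgebraicClosure ℚ)).Point (n : ℤ) :
        Submodule ℤ ((W.map (Int.castRingHom ℚ))⁄(AlgebraicClosure ℚ)).Point) :
        Set ((W.map (Int.castRingHom ℚ))⁄(AlgebraicClosure ℚ)).Point).Finite := by
    rw [hset]; exact hfin
  have hfin' : Finite (Submodule.torsionBy ℤ
      ((W.map (Int.castRingHom ℚ))⁄(AlgebraicClosure ℚ)).Point (n : ℤ)) := hfin2.to_subtype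
  have hcard' : Nat.card (Submodule.torsionBy ℤ
      ((W.map (Int.castRingHom ℚ))⁄(AlgebraicClosure ℚ)).Point (n : ℤ)) < n ^ 3 := by
    have h1 : Nat.card (Submodule.torsionBy ℤ
        ((W.map (Int.castRingHom ℚ))⁄(AlgebraicClosure ℚ)).Point (n : ℤ)) =
        ((Submodule.torsionBy ℤ
          ((W.map (Int.castRingHom ℚ))⁄(AlgebraicClosure ℚ)).Point (n : ℤ) :
          Submodule ℤ ((W.map (Int.castRingHom ℚ))⁄(AlgebraicClosure ℚ)).Point) :
          Set ((W.map (Int.castRingHom ℚ))⁄(AlgebraicClosure ℚ)).Point).ncard :=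
      Nat.card_coe_set_eq _
    rw [h1, hset]
    exact hcard
  obtain ⟨P, hPN, hP0, hline⟩ := line_of_proper n hcard' N hbot htop
  refine ⟨(P : ((W.map (Int.castRingHom ℚ))⁄(AlgebraicClosure ℚ)).Point), ?_, (hmem _).mp P.2,
    fun σ => ?_⟩
  · intro h
    exact hP0 (Subtype.ext h)
  · obtain ⟨k, hk⟩ := hline (σ • P) (hstab σ P hPN)
    refine ⟨k, ?_⟩
    exact (congrArg Subtype.val hk).trans (AddSubmonoidClass.coe_nsmul P k)


theorem exists_r (hΔ : W.Δ ≠ 0) (h3 : ¬ W.ModRepIsIrreducible 3) :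
    ∃ (T : ((W.map (Int.castRingHom ℚ))⁄(AlgebraicClosure ℚ)).Point) (r : ℚ),
      T ≠ 0 ∧ (3 : ℕ) • T = 0 ∧ algebraMap ℚ (AlgebraicClosure ℚ) r = xi (EK W) T := by
  have : Fact (Nat.Prime 3) := ⟨by norm_num⟩
  have hΔK := EK_Δ_ne_zero W hΔ
  obtain ⟨hfin, hcard⟩ := three_torsion_finite (EK W)
  obtain ⟨T, hT0, h3T, hσ⟩ := reducible_line W 3 (exists_three_torsion (EK W) hΔK) hfin
    (lt_of_le_of_lt hcard (by norm_num)) h3
  have hfix : ∀ σ : AlgebraicClosure ℚ ≃ₐ[ℚ] AlgebraicClosure ℚ,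
      σ (xi (EK W) T) = xi (EK W) T := by
    intro σ
    obtain ⟨k, hk⟩ := hσ σ
    rw [nsmul_mod_of_nsmul_eq_zero 3 k T h3T] at hk
    rw [← xi_smul]
    have hk3 : k % 3 < 3 := Nat.mod_lt _ (by norm_num)
    interval_cases (k % 3)
    · rw [zero_nsmul] at hk
      exact absurd ((smul_eq_zero_iff_eq σ).mp hk) hT0
    · rw [one_nsmul] at hk
      rw [hk]
    · have h2 : (2 : ℕ) • T = -T := by
        have : (2 : ℕ) • T = -T + (3 : ℕ) • T := by module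
        rw [this, h3T, add_zero]
      rw [hk, h2, xi_neg]
  obtain ⟨r, hr⟩ := fixed_rat _ hfix
  exact ⟨T, r, hT0, h3T, hr⟩

theorem exists_sp (hΔ : W.Δ ≠ 0) (h5 : ¬ W.ModRepIsIrreducible 5) :
    ∃ (P : ((W.map (Int.castRingHom ℚ))⁄(AlgebraicClosure ℚ)).Point) (s p : ℚ),
      P ≠ 0 ∧ (5 : ℕ) • P = 0 ∧
      algebraMap ℚ (AlgebraicClosure ℚ) s = xi (EK W) P + xi (EK W) ((2 : ℕ) • P) ∧
      algebraMap ℚ (AlgebraicClosure ℚ) p = xi (EK W) P * xi (EK W) ((2 : ℕ) • P) := by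
  have : Fact (Nat.Prime 5) := ⟨by norm_num⟩
  have hΔK := EK_Δ_ne_zero W hΔ
  obtain ⟨hfin, hcard⟩ := five_torsion_finite (EK W)
  obtain ⟨P, hP0, h5P, hσ⟩ := reducible_line W 5 (exists_five_torsion (EK W) hΔK) hfin
    (lt_of_le_of_lt hcard (by norm_num)) h5
  have hswap : ∀ σ : AlgebraicClosure ℚ ≃ₐ[ℚ] AlgebraicClosure ℚ,
      (σ (xi (EK W) P) = xi (EK W) P ∧ σ (xi (EK W) ((2 : ℕ) • P)) = xi (EK W) ((2 : ℕ) • P)) ∨
      (σ (xi (EK W) P) = xi (EK W) ((2 : ℕ) • P) ∧ σ (xi (EK W) ((2 : ℕ) • P)) = xi (EK W) P) := by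
    intro σ
    obtain ⟨k, hk⟩ := hσ σ
    rw [nsmul_mod_of_nsmul_eq_zero 5 k P h5P] at hk
    have h2σ : σ • ((2 : ℕ) • P) = (2 : ℕ) • (σ • P) := by
      have := algEquiv_smul_zsmul σ ((2 : ℕ) : ℤ) P
      rwa [natCast_zsmul, natCast_zsmul] at this
    rw [← xi_smul, ← xi_smul, h2σ]
    have hk5 : k % 5 < 5 := Nat.mod_lt _ (by norm_num)
    interval_cases (k % 5)
    · rw [zero_nsmul] at hk
      exact absurd ((smul_eq_zero_iff_eq σ).mp hk) hP0
    · rw [one_nsmul] at hk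
      left
      rw [hk]
      exact ⟨rfl, rfl⟩
    · right
      rw [hk]
      refine ⟨rfl, ?_⟩
      have h4 : (2 : ℕ) • (2 : ℕ) • P = -P := by
        have : (2 : ℕ) • (2 : ℕ) • P = -P + (5 : ℕ) • P := by module
        rw [this, h5P, add_zero]
      rw [h4, xi_neg]
    · right
      rw [hk]
      have h3 : (3 : ℕ) • P = -((2 : ℕ) • P) := by
        have : (3 : ℕ) • P = -((2 : ℕ) • P) + (5 : ℕ) • P := by module
        rw [this, h5P, add_zero]
      have h6 : (2 : ℕ) • (3 : ℕ) • P = P := by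
        have : (2 : ℕ) • (3 : ℕ) • P = P + (5 : ℕ) • P := by module
        rw [this, h5P, add_zero]
      rw [h6, h3, xi_neg]
      exact ⟨rfl, rfl⟩
    · left
      rw [hk]
      have h4 : (4 : ℕ) • P = -P := by
        have : (4 : ℕ) • P = -P + (5 : ℕ) • P := by module
        rw [this, h5P, add_zero]
      have h8 : (2 : ℕ) • (4 : ℕ) • P = -((2 : ℕ) • P) := by
        have : (2 : ℕ) • (4 : ℕ) • P = -((2 : ℕ) • P) + (2 : ℕ) • (5 : ℕ) • P := by module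
        rw [this, h5P, nsmul_zero, add_zero]
      rw [h8, h4, xi_neg, xi_neg]
      exact ⟨rfl, rfl⟩
  have hfix_s : ∀ σ : AlgebraicClosure ℚ ≃ₐ[ℚ] AlgebraicClosure ℚ,
      σ (xi (EK W) P + xi (EK W) ((2 : ℕ) • P)) = xi (EK W) P + xi (EK W) ((2 : ℕ) • P) := by
    intro σ
    rw [map_add]
    rcases hswap σ with ⟨h1, h2⟩ | ⟨h1, h2⟩
    · rw [h1, h2]
    · rw [h1, h2, add_comm]
  have hfix_p : ∀ σ : AlgebraicClosure ℚ ≃ₐ[ℚ] AlgebraicClosure ℚ,
      σ (xi (EK W) P * xi (EK W) ((2 : ℕ) • P)) = xi (EK W) P * xi (EK W) ((2 : ℕ) • P) := by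
    intro σ
    rw [map_mul]
    rcases hswap σ with ⟨h1, h2⟩ | ⟨h1, h2⟩
    · rw [h1, h2]
    · rw [h1, h2, mul_comm]
  obtain ⟨s, hs⟩ := fixed_rat _ hfix_s
  obtain ⟨p, hp⟩ := fixed_rat _ hfix_p
  exact ⟨P, s, p, hP0, h5P, hs, hp⟩


theorem cA_EK : cA (EK W) = algebraMap ℚ (AlgebraicClosure ℚ) (-(W.c₄ : ℚ) / 48) := by
  simp [cA, EK, WeierstrassCurve.baseChange, WeierstrassCurve.map_c₄]

theorem cB_EK : cB (EK W) = algebraMap ℚ (AlgebraicClosure ℚ) (-(W.c₆ : ℚ) / 864) := by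
  simp [cB, EK, WeierstrassCurve.baseChange, WeierstrassCurve.map_c₆]

theorem torsion_data (hΔ : W.Δ ≠ 0)
    (h3 : ¬ W.ModRepIsIrreducible 3) (h5 : ¬ W.ModRepIsIrreducible 5) :
    ∃ r s p : ℚ,
      3 * r ^ 4 + 6 * (-(W.c₄ : ℚ) / 48) * r ^ 2 + 12 * (-(W.c₆ : ℚ) / 864) * r
        - (-(W.c₄ : ℚ) / 48) ^ 2 = 0 ∧
      4 * (-(W.c₆ : ℚ) / 864) = s * (s ^ 2 - 6 * p - 2 * (-(W.c₄ : ℚ) / 48)) ∧
      ((-(W.c₄ : ℚ) / 48) + s ^ 2 - p) ^ 2 = (2 * s ^ 2 + p) * (s ^ 2 - 4 * p) ∧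
      s ^ 2 ≠ 4 * p ∧ r ^ 2 - s * r + p ≠ 0 := by
  obtain ⟨T, r, hT0, h3T, hr⟩ := exists_r W hΔ h3
  obtain ⟨P, s, p, hP0, h5P, hs, hp⟩ := exists_sp W hΔ h5
  have hψ := psi3_xi_of_three_nsmul (EK W) T hT0 h3T
  obtain ⟨hne, h1, h2⟩ := xi_of_five_nsmul (EK W) P hP0 h5P
  have h2P0 : (2 : ℕ) • P ≠ 0 := by
    intro h
    apply hP0
    have : P = (5 : ℕ) • P - (2 : ℕ) • (2 : ℕ) • P := by module
    rw [this, h5P, h, nsmul_zero, sub_zero]
  -- `xi T` differs from `xi P` and `xi (2P)`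
  have hTP : xi (EK W) T ≠ xi (EK W) P := by
    intro h
    apply hP0
    rcases (xi_eq_xi_iff (EK W) hT0 hP0).mp h with h | h
    · rw [h] at h3T
      have : P = (2 : ℕ) • (3 : ℕ) • P - (5 : ℕ) • P := by module
      rw [this, h5P, h3T, nsmul_zero, sub_zero]
    · rw [h] at h3T
      have : P = (2 : ℕ) • (5 : ℕ) • P + (3 : ℕ) • (3 : ℕ) • (-P) := by module
      rw [this, h5P, h3T, nsmul_zero, nsmul_zero, add_zero]
  have hT2P : xi (EK W) T ≠ xi (EK W) ((2 : ℕ) • P) := by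
    intro h
    apply hP0
    rcases (xi_eq_xi_iff (EK W) hT0 h2P0).mp h with h | h
    · rw [h] at h3T
      have : P = (3 : ℕ) • (2 : ℕ) • P - (5 : ℕ) • P := by module
      rw [this, h5P, h3T, sub_zero]
    · rw [h] at h3T
      have : P = -((5 : ℕ) • P) - (3 : ℕ) • (-((2 : ℕ) • P)) := by module
      rw [this, h5P, h3T, _root_.neg_zero, sub_zero]
  obtain ⟨Aq, hAq⟩ : ∃ Aq : ℚ, Aq = -(W.c₄ : ℚ) / 48 := ⟨_, rfl⟩
  obtain ⟨Bq, hBq⟩ : ∃ Bq : ℚ, Bq = -(W.c₆ : ℚ) / 864 := ⟨_, rfl⟩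
  have hA : cA (EK W) = algebraMap ℚ (AlgebraicClosure ℚ) Aq := by rw [hAq]; exact cA_EK W
  have hB : cB (EK W) = algebraMap ℚ (AlgebraicClosure ℚ) Bq := by rw [hBq]; exact cB_EK W
  rw [← hAq, ← hBq]
  obtain ⟨u, hu⟩ : ∃ u : AlgebraicClosure ℚ, u = xi (EK W) P := ⟨_, rfl⟩
  obtain ⟨v, hv⟩ : ∃ v : AlgebraicClosure ℚ, v = xi (EK W) ((2 : ℕ) • P) := ⟨_, rfl⟩
  rw [← hu, ← hv] at hs hp hne h1 h2
  rw [← hu] at hTP
  rw [← hv] at hT2P
  rw [← hr] at hψ hTP hT2P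
  rw [hA, hB] at hψ h1 h2
  simp only [psi3, fpol, Npol] at hψ h1 h2
  have hinj := (algebraMap ℚ (AlgebraicClosure ℚ)).injective
  have huv : u - v ≠ 0 := sub_ne_zero.mpr hne
  -- relation (c) over the algebraic closure
  have hcK : 4 * algebraMap ℚ (AlgebraicClosure ℚ) Bq =
      (u + v) * ((u + v) ^ 2 - 6 * (u * v) - 2 * algebraMap ℚ (AlgebraicClosure ℚ) Aq) := by
    apply mul_left_cancel₀ huv
    linear_combination h1 - h2
  have hdK : (algebraMap ℚ (AlgebraicClosure ℚ) Aq + (u + v) ^ 2 - u * v) ^ 2 =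
      (2 * (u + v) ^ 2 + u * v) * ((u + v) ^ 2 - 4 * (u * v)) := by
    linear_combination (-1 / 2 : AlgebraicClosure ℚ) * h1 + (-1 / 2 : AlgebraicClosure ℚ) * h2
      + (3 / 2 : AlgebraicClosure ℚ) * (u + v) * hcK
  rw [← hs, ← hp] at hcK hdK
  refine ⟨r, s, p, ?_, ?_, ?_, ?_, ?_⟩
  · apply hinj
    simp only [map_add, map_sub, map_mul, map_pow, map_ofNat, _root_.map_zero]
    exact hψ
  · apply hinj
    simp only [map_add, map_sub, map_mul, map_pow, map_ofNat]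
    exact hcK
  · apply hinj
    simp only [map_add, map_sub, map_mul, map_pow, map_ofNat]
    exact hdK
  · intro h
    apply huv
    have h' := congrArg (algebraMap ℚ (AlgebraicClosure ℚ)) h
    simp only [map_mul, map_pow, map_ofNat] at h'
    rw [hs, hp] at h'
    have h'' : (u - v) ^ 2 = 0 := by linear_combination h'
    exact pow_eq_zero_iff (by norm_num) |>.mp h''
  · intro h
    have h' := congrArg (algebraMap ℚ (AlgebraicClosure ℚ)) h
    simp only [map_add, map_sub, map_mul, map_pow, _root_.map_zero] at h'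
    rw [hs, hp] at h'
    have h'' : (algebraMap ℚ (AlgebraicClosure ℚ) r - u) *
        (algebraMap ℚ (AlgebraicClosure ℚ) r - v) = 0 := by linear_combination h'
    rcases mul_eq_zero.mp h'' with h0 | h0
    · exact hTP (sub_eq_zero.mp h0)
    · exact hT2P (sub_eq_zero.mp h0)

end

end Fermat.Agent.S51
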