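import Mathlib

/-!
# S51: the algebraic dictionary from torsion data to the quartic model of X₀(15).
-/

set_option autoImplicit false

namespace Fermat.Agent.S51

/-- Relation among the "modular units" attached to a 3-torsion abscissa `r` and the kernel
polynomial `x² - s x + p` of a subgroup of order 5 on `y² = x³ + A x + B`. -/
theorem units_relation (A B r s p : ℚ)
    (hb : 3 * r ^ 4 + 6 * A * r ^ 2 + 12 * B * r - A ^ 2 = 0)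
    (hc : 4 * B = s * (s ^ 2 - 6 * p - 2 * A))
    (hd : (A + s ^ 2 - p) ^ 2 = (2 * s ^ 2 + p) * (s ^ 2 - 4 * p)) :
    (9 * (r ^ 2 - s * r + p) + (s ^ 2 - 4 * p)) * (s ^ 2 - 4 * p) ^ 5 * (3 * r ^ 2 + A) ^ 2
      - 45 * (r ^ 2 - s * r + p) ^ 3 * (s ^ 2 - 4 * p) ^ 3 * (3 * r ^ 2 + A) * (r ^ 2 + 3 * A)
      - 81 * (r ^ 2 - s * r + p) ^ 5 * ((r ^ 2 - s * r + p) - (s ^ 2 - 4 * p)) * (r ^ 2 + 3 * A) ^ 2
      = 0 := by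
  linear_combination
    (-108*A*r^10 + 594*A*r^9*s - 1116*A*r^8*s^2 - 1152*A*r^8*p + 702*A*r^7*s^3 + 4752*A*r^7*s*p + 162*A*r^6*s^4 - 5940*A*r^6*s^2*p - 4536*A*r^6*p^2 - 270*A*r^5*s^5 + 1602*A*r^5*s^3*p + 12276*A*r^5*s*p^2 - 6*A*r^4*s^6 + 1440*A*r^4*s^4*p - 9828*A*r^4*s^2*p^2 - 4512*A*r^4*p^3 + 54*A*r^3*s^7 - 810*A*r^3*s^5*p + 1890*A*r^3*s^3*p^2 + 6912*A*r^3*s*p^3 - 12*A*r^2*s^8 + 84*A*r^2*s^6*p + 378*A*r^2*s^4*p^2 - 2508*A*r^2*s^2*p^3 - 1020*A*r^2*p^4 + 12*A*r*s^7*p - 126*A*r*s^5*p^2 + 270*A*r*s^3*p^3 + 330*A*r*s*p^4 - 27*r^12 + 162*r^11*s - 378*r^10*s^2 - 270*r^10*p + 432*r^9*s^3 + 1188*r^9*s*p - 333*r^8*s^4 - 1413*r^8*s^2*p - 765*r^8*p^2 + 378*r^7*s^5 - 378*r^7*s^3*p + 1620*r^7*s*p^2 - 405*r^6*s^6 + 1296*r^6*s^4*p + 1188*r^6*s^2*p^2 + 2700*r^6*p^3 + 198*r^5*s^7 - 126*r^5*s^5*p - 2718*r^5*s^3*p^2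 - 14040*r^5*s*p^3 - 15*r^4*s^8 - 372*r^4*s^6*p - 1089*r^4*s^4*p^2 + 20310*r^4*s^2*p^3 + 9435*r^4*p^4 - 216*r^3*s^7*p + 3942*r^3*s^5*p^2 - 12582*r^3*s^3*p^3 - 18630*r^3*s*p^4 - 15*r^2*s^10 + 363*r^2*s^8*p - 2625*r^2*s^6*p^2 + 4002*r^2*s^4*p^3 + 10590*r^2*s^2*p^4 + 4290*r^2*p^5 + 6*r*s^11 - 108*r*s^9*p + 534*r*s^7*p^2 + 12*r*s^5*p^3 - 3330*r*s^3*p^4 - 2460*r*s*p^5 - s^12 + 15*s^10*p - 60*s^8*p^2 - 25*s^6*p^3 + 300*s^4*p^4 + 375*s^2*p^5 + 125*p^6) * hb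
    - 3 * r * (-108*A*r^10 + 594*A*r^9*s - 1116*A*r^8*s^2 - 1152*A*r^8*p + 702*A*r^7*s^3 + 4752*A*r^7*s*p + 162*A*r^6*s^4 - 5940*A*r^6*s^2*p - 4536*A*r^6*p^2 - 270*A*r^5*s^5 + 1602*A*r^5*s^3*p + 12276*A*r^5*s*p^2 - 6*A*r^4*s^6 + 1440*A*r^4*s^4*p - 9828*A*r^4*s^2*p^2 - 4512*A*r^4*p^3 + 54*A*r^3*s^7 - 810*A*r^3*s^5*p + 1890*A*r^3*s^3*p^2 + 6912*A*r^3*s*p^3 - 12*A*r^2*s^8 + 84*A*r^2*s^6*p + 378*A*r^2*s^4*p^2 - 2508*A*r^2*s^2*p^3 - 1020*A*r^2*p^4 + 12*A*r*s^7*p - 126*A*r*s^5*p^2 + 270*A*r*s^3*p^3 + 330*A*r*s*p^4 - 27*r^12 + 162*r^11*s - 378*r^10*s^2 - 270*r^10*p + 432*r^9*s^3 + 1188*r^9*s*p - 333*r^8*s^4 - 1413*r^8*s^2*p - 765*r^8*p^2 + 378*r^7*s^5 - 378*r^7*s^3*p + 1620*r^7*s*p^2 - 405*r^6*s^6 + 1296*r^6*s^4*p + 1188*r^6*s^2*p^2 + 2700*r^6*p^3 + 198*r^5*s^7 - 126*r^5*s^5*p - 2718*r^5*s^3*p^2 - 14040*r^5*s*p^3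 - 15*r^4*s^8 - 372*r^4*s^6*p - 1089*r^4*s^4*p^2 + 20310*r^4*s^2*p^3 + 9435*r^4*p^4 - 216*r^3*s^7*p + 3942*r^3*s^5*p^2 - 12582*r^3*s^3*p^3 - 18630*r^3*s*p^4 - 15*r^2*s^10 + 363*r^2*s^8*p - 2625*r^2*s^6*p^2 + 4002*r^2*s^4*p^3 + 10590*r^2*s^2*p^4 + 4290*r^2*p^5 + 6*r*s^11 - 108*r*s^9*p + 534*r*s^7*p^2 + 12*r*s^5*p^3 - 3330*r*s^3*p^4 - 2460*r*s*p^5 - s^12 + 15*s^10*p - 60*s^8*p^2 - 25*s^6*p^3 + 300*s^4*p^4 + 375*s^2*p^5 + 125*p^6) * hc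
    + (-108*A*r^10 + 594*A*r^9*s - 1116*A*r^8*s^2 - 1152*A*r^8*p + 702*A*r^7*s^3 + 4752*A*r^7*s*p + 162*A*r^6*s^4 - 5940*A*r^6*s^2*p - 4536*A*r^6*p^2 - 270*A*r^5*s^5 + 1602*A*r^5*s^3*p + 12276*A*r^5*s*p^2 - 6*A*r^4*s^6 + 1440*A*r^4*s^4*p - 9828*A*r^4*s^2*p^2 - 4512*A*r^4*p^3 + 54*A*r^3*s^7 - 810*A*r^3*s^5*p + 1890*A*r^3*s^3*p^2 + 6912*A*r^3*s*p^3 - 12*A*r^2*s^8 + 84*A*r^2*s^6*p + 378*A*r^2*s^4*p^2 - 2508*A*r^2*s^2*p^3 - 1020*A*r^2*p^4 + 12*A*r*s^7*p - 126*A*r*s^5*p^2 + 270*A*r*s^3*p^3 + 330*A*r*s*p^4 - 108*r^12 + 324*r^11*s - 108*r^10*s^2 - 864*r^10*p - 729*r^9*s^3 + 3402*r^9*s*p + 1494*r^8*s^4 - 6444*r^8*s^2*p - 1368*r^8*p^2 - 1350*r^7*s^5 + 4590*r^7*s^3*p + 12312*r^7*s*p^2 + 468*r^6*s^6 + 1512*r^6*s^4*p - 21276*r^6*s^2*p^2 - 14400*r^6*p^3 + 54*r^5*s^7 - 2520*r^5*s^5*p + 5256*r^5*s^3*p^2 + 47268*r^5*s*p^3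 - 12*r^4*s^8 - 528*r^4*s^6*p + 12294*r^4*s^4*p^2 - 51252*r^4*s^2*p^3 - 7644*r^4*p^4 - 45*r^3*s^9 + 1134*r^3*s^7*p - 8964*r^3*s^5*p^2 + 20106*r^3*s^3*p^3 + 15444*r^3*s*p^4 + 18*r^2*s^10 - 342*r^2*s^8*p + 1926*r^2*s^6*p^2 - 1656*r^2*s^4*p^3 - 8856*r^2*s^2*p^4 - 3*r*s^11 + 48*r*s^9*p - 225*r*s^7*p^2 + 120*r*s^5*p^3 + 825*r*s^3*p^4 + 450*r*s*p^5) * hd

theorem three_side (A B r : ℚ)
    (hb : 3 * r ^ 4 + 6 * A * r ^ 2 + 12 * B * r - A ^ 2 = 0) :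
    (3 * r ^ 2 + A) ^ 3 * (r ^ 2 + 3 * A) = 16 * r ^ 2 * (4 * A ^ 3 + 27 * B ^ 2) := by
  linear_combination (3 * (3 * r ^ 4 + 6 * A * r ^ 2 - A ^ 2) - 36 * B * r) * hb


theorem not_isSquare_five : ¬ IsSquare (5 : ℚ) := by
  intro h
  have h5 : IsSquare ((5 : ℕ) : ℚ) := by exact_mod_cast h
  rw [Rat.isSquare_natCast_iff] at h5
  obtain ⟨k, hk⟩ := h5
  have hk2 : k ≤ 2 := by nlinarith
  interval_cases k <;> omega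

theorem A_ne_zero (A s p : ℚ)
    (hd : (A + s ^ 2 - p) ^ 2 = (2 * s ^ 2 + p) * (s ^ 2 - 4 * p))
    (he : s ^ 2 ≠ 4 * p) : A ≠ 0 := by
  rintro rfl
  have h1 : (2 * s ^ 2 - 5 * p) ^ 2 = 45 * p ^ 2 := by linear_combination (-4 : ℚ) * hd
  by_cases hp : p = 0
  · subst hp
    have hs : s = 0 := by
      have : s ^ 4 = 0 := by linear_combination (1 / 4 : ℚ) * h1
      exact pow_eq_zero_iff (by norm_num) |>.mp this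
    exact he (by rw [hs]; ring)
  · apply not_isSquare_five
    refine ⟨(2 * s ^ 2 - 5 * p) / (3 * p), ?_⟩
    field_simp
    linear_combination -h1

/-- The core Diophantine statement, modulo the descent on the quartic model of `X₀(15)`. -/
theorem core
    (hdesc : ∀ f V : ℚ, V ^ 2 = (f ^ 2 - f - 1) * (f ^ 2 + 11 * f - 1) →
      f = 0 ∨ f = 2 ∨ f = -1 / 2)
    (A B r s p : ℚ) (hΔ : 4 * A ^ 3 + 27 * B ^ 2 ≠ 0)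
    (hb : 3 * r ^ 4 + 6 * A * r ^ 2 + 12 * B * r - A ^ 2 = 0)
    (hc : 4 * B = s * (s ^ 2 - 6 * p - 2 * A))
    (hd : (A + s ^ 2 - p) ^ 2 = (2 * s ^ 2 + p) * (s ^ 2 - 4 * p))
    (he : s ^ 2 ≠ 4 * p) (hf : r ^ 2 - s * r + p ≠ 0) :
    2 * (6912 * A ^ 3) = -25 * (4 * A ^ 3 + 27 * B ^ 2) ∨
    8 * (6912 * A ^ 3) = -349938025 * (4 * A ^ 3 + 27 * B ^ 2) ∨
    32 * (6912 * A ^ 3) = -121945 * (4 * A ^ 3 + 27 * B ^ 2) ∨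
    32768 * (6912 * A ^ 3) = 46969655 * (4 * A ^ 3 + 27 * B ^ 2) := by
  have hA : A ≠ 0 := A_ne_zero A s p hd he
  have hr : r ≠ 0 := by
    rintro rfl
    apply hA
    have : A ^ 2 = 0 := by linear_combination -hb
    exact pow_eq_zero_iff (by norm_num) |>.mp this
  have h3 := three_side A B r hb
  have hT := units_relation A B r s p hb hc hd
  obtain ⟨U1, hU1⟩ : ∃ U1 : ℚ, U1 = r ^ 2 - s * r + p := ⟨_, rfl⟩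
  obtain ⟨U2, hU2⟩ : ∃ U2 : ℚ, U2 = s ^ 2 - 4 * p := ⟨_, rfl⟩
  obtain ⟨U4, hU4⟩ : ∃ U4 : ℚ, U4 = 3 * r ^ 2 + A := ⟨_, rfl⟩
  obtain ⟨U5, hU5⟩ : ∃ U5 : ℚ, U5 = r ^ 2 + 3 * A := ⟨_, rfl⟩
  rw [← hU1, ← hU2, ← hU4, ← hU5] at hT
  rw [← hU4, ← hU5] at h3
  have hU1n : U1 ≠ 0 := by rw [hU1]; exact hf
  have hU2n : U2 ≠ 0 := by rw [hU2]; exact sub_ne_zero.mpr he
  have hU45 : U4 ^ 3 * U5 ≠ 0 := by
    rw [h3]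
    exact mul_ne_zero (mul_ne_zero (by norm_num) (pow_ne_zero 2 hr)) hΔ
  have hU4n : U4 ≠ 0 := fun h => hU45 (by rw [h]; ring)
  have hU5n : U5 ≠ 0 := fun h => hU45 (by rw [h]; ring)
  have hA8 : 8 * A = 3 * U5 - U4 := by rw [hU4, hU5]; ring
  have hr8 : 8 * r ^ 2 = 3 * U4 - U5 := by rw [hU4, hU5]; ring
  obtain ⟨X, hX⟩ : ∃ X : ℚ, X = U1 / U2 := ⟨_, rfl⟩
  obtain ⟨Hq, hHq⟩ : ∃ Hq : ℚ, Hq = U4 / U5 := ⟨_, rfl⟩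
  have hXn : X ≠ 0 := by rw [hX]; exact div_ne_zero hU1n hU2n
  have hHqn : Hq ≠ 0 := by rw [hHq]; exact div_ne_zero hU4n hU5n
  have hR : (9 * X + 1) * Hq ^ 2 - 45 * X ^ 3 * Hq - 81 * X ^ 5 * (X - 1) = 0 := by
    rw [hX, hHq]
    field_simp
    linear_combination hT
  -- the j-invariant in terms of Hq
  have hj : 6912 * A ^ 3 * Hq ^ 3 = 27 * (3 - Hq) ^ 3 * (3 * Hq - 1) * (4 * A ^ 3 + 27 * B ^ 2) := by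
    have hj0 : 6912 * A ^ 3 * (U4 ^ 3 * U5) =
        27 * (3 * U5 - U4) ^ 3 * (3 * U4 - U5) * (4 * A ^ 3 + 27 * B ^ 2) := by
      rw [h3, ← hA8, ← hr8]; ring
    rw [hHq]
    field_simp
    linear_combination hj0
  obtain ⟨f, hfdef⟩ : ∃ f : ℚ, f = 9 * X ^ 3 / Hq := ⟨_, rfl⟩
  obtain ⟨g, hgdef⟩ : ∃ g : ℚ, g = -Hq / X ^ 2 := ⟨_, rfl⟩
  have hfn : f ≠ 0 := by
    rw [hfdef]; exact div_ne_zero (mul_ne_zero (by norm_num) (pow_ne_zero 3 hXn)) hHqn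
  have hfg : f * g ^ 2 + (f ^ 2 + 5 * f - 1) * g + 9 * f = 0 := by
    rw [hfdef, hgdef]
    field_simp
    linear_combination hR
  have hHfg : Hq = -(f ^ 2 * g ^ 3) / 81 := by
    rw [hfdef, hgdef]
    field_simp
    norm_num
  have hV : (2 * f * g + f ^ 2 + 5 * f - 1) ^ 2 = (f ^ 2 - f - 1) * (f ^ 2 + 11 * f - 1) := by
    linear_combination 4 * f * hfg
  have hg : g = -2 ∨ g = -9 / 2 := by
    have h2 : (g + 2) * (2 * g + 9) = 0 := by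
      rcases hdesc f _ hV with h0 | h2 | hh
      · exact absurd h0 hfn
      · rw [h2] at hfg; linear_combination hfg
      · rw [hh] at hfg; linear_combination (-4 : ℚ) * hfg
    rcases mul_eq_zero.mp h2 with h | h
    · left; linear_combination h
    · right; linear_combination h / 2
  rcases hdesc f _ hV with h0 | h2 | hh
  · exact absurd h0 hfn
  · rcases hg with hg | hg
    · -- f = 2, g = -2 : Hq = 32/81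
      have hH : Hq = 32 / 81 := by rw [hHfg, h2, hg]; norm_num
      rw [hH] at hj
      right; right; right
      linear_combination (531441 : ℚ) * hj
    · -- f = 2, g = -9/2 : Hq = 9/2
      have hH : Hq = 9 / 2 := by rw [hHfg, h2, hg]; norm_num
      rw [hH] at hj
      left
      linear_combination (16 / 729 : ℚ) * hj
  · rcases hg with hg | hg
    · -- f = -1/2, g = -2 : Hq = 2/81
      have hH : Hq = 2 / 81 := by rw [hHfg, hh, hg]; norm_num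
      rw [hH] at hj
      right; left
      linear_combination (531441 : ℚ) * hj
    · -- f = -1/2, g = -9/2 : Hq = 9/32
      have hH : Hq = 9 / 32 := by rw [hHfg, hh, hg]; norm_num
      rw [hH] at hj
      right; right; left
      linear_combination (1048576 / 729 : ℚ) * hj

end Fermat.Agent.S51
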