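import Mathlib

namespace Fermat.Agent.S51
namespace Descent


theorem sq_of_coprime_pos {a b c : ℤ} (h : IsCoprime a b) (heq : a * b = c ^ 2) (ha : 0 < a) :
    ∃ k : ℤ, a = k ^ 2 := by
  obtain ⟨k, hk | hk⟩ := Int.sq_of_isCoprime h heq
  · exact ⟨k, hk⟩
  · exfalso; nlinarith [sq_nonneg k]

theorem sq_div_sq {a b M : ℤ} (ha : a ≠ 0) (h : a ^ 2 * b = M ^ 2) :
    ∃ M' : ℤ, M = a * M' ∧ b = M' ^ 2 := by
  have hdvd : a ∣ M := by
    have : a ^ 2 ∣ M ^ 2 := ⟨b, h.symm⟩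
    exact (Int.pow_dvd_pow_iff two_ne_zero).mp this
  obtain ⟨M', rfl⟩ := hdvd
  refine ⟨M', rfl, ?_⟩
  have h2 : a ^ 2 * b = a ^ 2 * M' ^ 2 := by rw [h]; ring
  exact mul_left_cancel₀ (pow_ne_zero 2 ha) h2

theorem no_sq_mod3_a : ∀ r z K : ZMod 3, r ≠ 0 → z ≠ 0 →
    r * (3 * r - z ^ 2) * (r - 27 * z ^ 2) ≠ K ^ 2 := by
  decide

theorem no_sq_mod3_b : ∀ r z K : ZMod 3, r ≠ 0 → z ≠ 0 →
    r * (27 * r - z ^ 2) * (r - 3 * z ^ 2) ≠ K ^ 2 := by
  decide

theorem cop_aux1 {x y : ℤ} (h : IsCoprime x y) (k : ℤ) : IsCoprime x (k * x - y) := by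
  have h1 : k * x - y = -y + x * k := by ring
  rw [h1]
  exact (IsCoprime.neg_right h).add_mul_left_right k

theorem cop_aux2 {x y c : ℤ} (h : IsCoprime x y) (hc : IsCoprime x c) :
    IsCoprime x (x - c * y) := by
  have h1 : x - c * y = -(c * y) + x * 1 := by ring
  rw [h1]
  exact (IsCoprime.neg_right (IsCoprime.mul_right hc h)).add_mul_left_right 1

theorem cop_three {x : ℤ} (h : ¬ (3 : ℤ) ∣ x) : IsCoprime x 3 :=
  ((Int.prime_three.irreducible).coprime_iff_not_dvd.mpr h).symm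

/-- part (b): `r` is a square -/
theorem r_sq {r z M₀ : ℤ} (hcop : IsCoprime r (z ^ 2)) (hr : 0 < r)
    (hM : r * (r - z ^ 2) * (r - 81 * z ^ 2) = M₀ ^ 2) : ∃ u : ℤ, r = u ^ 2 := by
  by_cases h3 : (3 : ℤ) ∣ r
  · obtain ⟨r₀, rfl⟩ := h3
    have hz3 : ¬ (3 : ℤ) ∣ z := by
      intro hz
      have h1 : (3 : ℤ) ∣ z ^ 2 := dvd_pow hz two_ne_zero
      have h2 : IsUnit (3 : ℤ) := hcop.isUnit_of_dvd' (dvd_mul_right 3 r₀) h1
      exact absurd (Int.isUnit_iff.mp h2) (by norm_num)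
    have hz3' : ((z : ℤ) : ZMod 3) ≠ 0 := (ZMod.intCast_zmod_eq_zero_iff_dvd z 3).not.mpr hz3
    have hr₀ : 0 < r₀ := by linarith
    by_cases h3' : (3 : ℤ) ∣ r₀
    · obtain ⟨r₁, rfl⟩ := h3'
      have hr₁ : 0 < r₁ := by linarith
      by_cases h3'' : (3 : ℤ) ∣ r₁
      · obtain ⟨r₂, rfl⟩ := h3''
        have hr₂ : 0 < r₂ := by linarith
        by_cases h3''' : (3 : ℤ) ∣ r₂
        · obtain ⟨r₃, rfl⟩ := h3'''
          have hr₃ : 0 < r₃ := by linarith
          have hK : (81 : ℤ) ^ 2 * (r₃ * ((81 * r₃ - z ^ 2) * (r₃ - z ^ 2))) = M₀ ^ 2 := by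
            rw [← hM]; ring
          obtain ⟨K, -, hK'⟩ := sq_div_sq (by norm_num) hK
          have hc : IsCoprime r₃ (z ^ 2) :=
            IsCoprime.of_isCoprime_of_dvd_left hcop ⟨81, by ring⟩
          have hc2 : IsCoprime r₃ ((81 * r₃ - z ^ 2) * (r₃ - z ^ 2)) := by
            refine IsCoprime.mul_right (cop_aux1 hc 81) ?_
            have := cop_aux2 hc (isCoprime_one_right (x := r₃))
            simpa using this
          obtain ⟨k, hk⟩ := sq_of_coprime_pos hc2 hK' hr₃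
          exact ⟨9 * k, by rw [hk]; ring⟩
        · exfalso
          have hK : (27 : ℤ) ^ 2 * (r₂ * (27 * r₂ - z ^ 2) * (r₂ - 3 * z ^ 2)) = M₀ ^ 2 := by
            rw [← hM]; ring
          obtain ⟨K, -, hK'⟩ := sq_div_sq (by norm_num) hK
          have hr' : ((r₂ : ℤ) : ZMod 3) ≠ 0 :=
            (ZMod.intCast_zmod_eq_zero_iff_dvd r₂ 3).not.mpr h3'''
          have := congrArg (Int.cast : ℤ → ZMod 3) hK'
          push_cast at this
          exact no_sq_mod3_b _ _ _ hr' hz3' this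
      · have hK : (9 : ℤ) ^ 2 * (r₁ * ((9 * r₁ - z ^ 2) * (r₁ - 9 * z ^ 2))) = M₀ ^ 2 := by
          rw [← hM]; ring
        obtain ⟨K, -, hK'⟩ := sq_div_sq (by norm_num) hK
        have hc : IsCoprime r₁ (z ^ 2) :=
          IsCoprime.of_isCoprime_of_dvd_left hcop ⟨9, by ring⟩
        have hc9 : IsCoprime r₁ 9 := by
          have := (cop_three h3'').pow_right (n := 2)
          norm_num at this
          exact this
        have hc2 : IsCoprime r₁ ((9 * r₁ - z ^ 2) * (r₁ - 9 * z ^ 2)) :=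
          IsCoprime.mul_right (cop_aux1 hc 9) (cop_aux2 hc hc9)
        obtain ⟨k, hk⟩ := sq_of_coprime_pos hc2 hK' hr₁
        exact ⟨3 * k, by rw [hk]; ring⟩
    · exfalso
      have hK : (3 : ℤ) ^ 2 * (r₀ * (3 * r₀ - z ^ 2) * (r₀ - 27 * z ^ 2)) = M₀ ^ 2 := by
        rw [← hM]; ring
      obtain ⟨K, -, hK'⟩ := sq_div_sq (by norm_num) hK
      have hr' : ((r₀ : ℤ) : ZMod 3) ≠ 0 :=
        (ZMod.intCast_zmod_eq_zero_iff_dvd r₀ 3).not.mpr h3'
      have := congrArg (Int.cast : ℤ → ZMod 3) hK'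
      push_cast at this
      exact no_sq_mod3_a _ _ _ hr' hz3' this
  · have hc81 : IsCoprime r 81 := by
      have := (cop_three h3).pow_right (n := 4)
      norm_num at this
      exact this
    have hc2 : IsCoprime r ((r - z ^ 2) * (r - 81 * z ^ 2)) := by
      refine IsCoprime.mul_right ?_ (cop_aux2 hcop hc81)
      have := cop_aux2 hcop (isCoprime_one_right (x := r))
      simpa using this
    have hM' : r * ((r - z ^ 2) * (r - 81 * z ^ 2)) = M₀ ^ 2 := by rw [← hM]; ring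
    exact sq_of_coprime_pos hc2 hM' hr



theorem m4_even_a : ∀ u z a : ZMod 4, (u ^ 2 - z ^ 2 = 2 * a ^ 2 ∨ u ^ 2 - z ^ 2 = -(2 * a ^ 2) ∨
    u ^ 2 - z ^ 2 = 10 * a ^ 2 ∨ u ^ 2 - z ^ 2 = -(10 * a ^ 2)) → 2 * a = 0 := by decide

theorem m4_even_b : ∀ u z b : ZMod 4, (u ^ 2 - 81 * z ^ 2 = 2 * b ^ 2 ∨
    u ^ 2 - 81 * z ^ 2 = -(2 * b ^ 2) ∨
    u ^ 2 - 81 * z ^ 2 = 10 * b ^ 2 ∨ u ^ 2 - 81 * z ^ 2 = -(10 * b ^ 2)) → 2 * b = 0 := by decide

theorem m4_odd : ∀ a b z : ZMod 4, 2 * z ≠ 0 → (a ^ 2 - b ^ 2 = 10 * z ^ 2 ∨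
    -(a ^ 2 - b ^ 2) = 10 * z ^ 2 ∨ a ^ 2 - b ^ 2 = 2 * z ^ 2 ∨ -(a ^ 2 - b ^ 2) = 2 * z ^ 2) →
    False := by decide

theorem two_dvd_of_m4 {a : ℤ} (h : (2 * (a : ZMod 4)) = 0) : (2 : ℤ) ∣ a := by
  have h1 : ((2 * a : ℤ) : ZMod 4) = 0 := by push_cast; exact h
  have h2 := (ZMod.intCast_zmod_eq_zero_iff_dvd (2 * a) 4).mp h1
  omega

theorem m4_of_not_two_dvd {z : ℤ} (h : ¬ (2 : ℤ) ∣ z) : (2 * (z : ZMod 4)) ≠ 0 := by
  intro h0
  exact h (two_dvd_of_m4 h0)

theorem divisors_80 : Nat.divisors 80 = {1, 2, 4, 5, 8, 10, 16, 20, 40, 80} := by decide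

/-- no class with an even square-free part -/
theorem no_even_class {u z a b e : ℤ} (hcop : IsCoprime (u ^ 2) (z ^ 2))
    (he : e = 2 ∨ e = -2 ∨ e = 10 ∨ e = -10)
    (h1 : u ^ 2 - z ^ 2 = e * a ^ 2) (h2 : u ^ 2 - 81 * z ^ 2 = e * b ^ 2) : False := by
  have c1 := congrArg (Int.cast : ℤ → ZMod 4) h1
  have c2 := congrArg (Int.cast : ℤ → ZMod 4) h2
  push_cast at c1 c2
  have ha2 : (2 : ℤ) ∣ a := by
    apply two_dvd_of_m4
    apply m4_even_a (u : ZMod 4) (z : ZMod 4) (a : ZMod 4)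
    rcases he with rfl | rfl | rfl | rfl
    · left; rw [c1]; push_cast; ring
    · right; left; rw [c1]; push_cast; ring
    · right; right; left; rw [c1]; push_cast; ring
    · right; right; right; rw [c1]; push_cast; ring
  have hb2 : (2 : ℤ) ∣ b := by
    apply two_dvd_of_m4
    apply m4_even_b (u : ZMod 4) (z : ZMod 4) (b : ZMod 4)
    rcases he with rfl | rfl | rfl | rfl
    · left; rw [c2]; push_cast; ring
    · right; left; rw [c2]; push_cast; ring
    · right; right; left; rw [c2]; push_cast; ring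
    · right; right; right; rw [c2]; push_cast; ring
  obtain ⟨a₁, rfl⟩ := ha2
  obtain ⟨b₁, rfl⟩ := hb2
  have h2e : (2 : ℤ) ∣ e := by rcases he with rfl | rfl | rfl | rfl <;> norm_num
  have hzodd : ¬ (2 : ℤ) ∣ z := by
    intro h2z
    have h2A : (2 : ℤ) ∣ u ^ 2 - z ^ 2 := by rw [h1]; exact Dvd.dvd.mul_right h2e _
    have h2z2 : (2 : ℤ) ∣ z ^ 2 := dvd_pow h2z two_ne_zero
    have h2u2 : (2 : ℤ) ∣ u ^ 2 := by
      have := dvd_add h2A h2z2
      simpa using this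
    have : IsUnit (2 : ℤ) := hcop.isUnit_of_dvd' h2u2 h2z2
    exact absurd (Int.isUnit_iff.mp this) (by norm_num)
  have hz := m4_of_not_two_dvd hzodd
  have hdiff : e * (4 * (a₁ ^ 2 - b₁ ^ 2)) = 80 * z ^ 2 := by
    have : e * (4 * (a₁ ^ 2 - b₁ ^ 2)) = (u ^ 2 - z ^ 2) - (u ^ 2 - 81 * z ^ 2) := by
      rw [h1, h2]; ring
    rw [this]; ring
  refine m4_odd (a₁ : ZMod 4) (b₁ : ZMod 4) (z : ZMod 4) hz ?_
  rcases he with rfl | rfl | rfl | rfl
  · left
    have h : a₁ ^ 2 - b₁ ^ 2 = 10 * z ^ 2 := by linarith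
    have := congrArg (Int.cast : ℤ → ZMod 4) h
    push_cast at this; exact this
  · right; left
    have h : -(a₁ ^ 2 - b₁ ^ 2) = 10 * z ^ 2 := by linarith
    have := congrArg (Int.cast : ℤ → ZMod 4) h
    push_cast at this; exact this
  · right; right; left
    have h : a₁ ^ 2 - b₁ ^ 2 = 2 * z ^ 2 := by linarith
    have := congrArg (Int.cast : ℤ → ZMod 4) h
    push_cast at this; exact this
  · right; right; right
    have h : -(a₁ ^ 2 - b₁ ^ 2) = 2 * z ^ 2 := by linarith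
    have := congrArg (Int.cast : ℤ → ZMod 4) h
    push_cast at this; exact this

/-- the four admissible classes -/
def Cls (r s v w : ℤ) : Prop :=
  (r - s = v ^ 2 ∧ r - 81 * s = w ^ 2) ∨ (r - s = -v ^ 2 ∧ r - 81 * s = -w ^ 2) ∨
  (r - s = 5 * v ^ 2 ∧ r - 81 * s = 5 * w ^ 2) ∨ (r - s = -(5 * v ^ 2) ∧ r - 81 * s = -(5 * w ^ 2))

/-- part (c) -/
theorem cls_of_sq {u z N : ℤ} (hcop : IsCoprime (u ^ 2) (z ^ 2))
    (h1 : u ^ 2 ≠ z ^ 2) (h81 : u ^ 2 ≠ 81 * z ^ 2)
    (hN : (u ^ 2 - z ^ 2) * (u ^ 2 - 81 * z ^ 2) = N ^ 2) :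
    ∃ v w : ℤ, Cls (u ^ 2) (z ^ 2) v w := by
  have hA0 : u ^ 2 - z ^ 2 ≠ 0 := sub_ne_zero.mpr h1
  have hB0 : u ^ 2 - 81 * z ^ 2 ≠ 0 := sub_ne_zero.mpr h81
  set g : ℕ := Int.gcd (u ^ 2 - z ^ 2) (u ^ 2 - 81 * z ^ 2) with hg
  have hgpos : 0 < g := Int.gcd_pos_of_ne_zero_left _ hA0
  have hgA : (g : ℤ) ∣ u ^ 2 - z ^ 2 := Int.gcd_dvd_left _ _
  have hgB : (g : ℤ) ∣ u ^ 2 - 81 * z ^ 2 := Int.gcd_dvd_right _ _
  have hcopA : IsCoprime (u ^ 2 - z ^ 2) (z ^ 2) := by
    have := (hcop.symm.add_mul_left_right (-1)).symm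
    have e : u ^ 2 + z ^ 2 * (-1) = u ^ 2 - z ^ 2 := by ring
    rwa [e] at this
  have hg80 : (g : ℤ) ∣ 80 := by
    have hc : IsCoprime (g : ℤ) (z ^ 2) := IsCoprime.of_isCoprime_of_dvd_left hcopA hgA
    have : (g : ℤ) ∣ 80 * z ^ 2 := by
      have := dvd_sub hgA hgB
      have e : u ^ 2 - z ^ 2 - (u ^ 2 - 81 * z ^ 2) = 80 * z ^ 2 := by ring
      rwa [e] at this
    exact hc.dvd_of_dvd_mul_right this
  have hg80' : g ∣ 80 := by exact_mod_cast hg80
  have hmem : g ∈ Nat.divisors 80 := Nat.mem_divisors.mpr ⟨hg80', by norm_num⟩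
  rw [divisors_80] at hmem
  obtain ⟨A, hA⟩ := hgA
  obtain ⟨B, hB⟩ := hgB
  have hgne : (g : ℤ) ≠ 0 := by exact_mod_cast hgpos.ne'
  have hAB : IsCoprime A B := by
    have := Int.gcd_div_gcd_div_gcd (i := u ^ 2 - z ^ 2) (j := u ^ 2 - 81 * z ^ 2) hgpos
    rw [← hg] at this
    rw [hA, hB, Int.mul_ediv_cancel_left _ hgne, Int.mul_ediv_cancel_left _ hgne] at this
    exact Int.isCoprime_iff_gcd_eq_one.mpr this
  have hprod : (g : ℤ) ^ 2 * (A * B) = N ^ 2 := by rw [← hN, hA, hB]; ring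
  obtain ⟨N₁, -, hN₁⟩ := sq_div_sq hgne hprod
  have hA0' : A ≠ 0 := by rintro rfl; exact hA0 (by rw [hA]; ring)
  have hB0' : B ≠ 0 := by rintro rfl; exact hB0 (by rw [hB]; ring)
  obtain ⟨a, ha⟩ := Int.sq_of_isCoprime hAB hN₁
  obtain ⟨b, hb⟩ := Int.sq_of_isCoprime hAB.symm (by rw [mul_comm]; exact hN₁)
  -- sign consistency
  have hsign : (A = a ^ 2 ∧ B = b ^ 2) ∨ (A = -a ^ 2 ∧ B = -b ^ 2) := by
    rcases ha with ha | ha <;> rcases hb with hb | hb
    · exact Or.inl ⟨ha, hb⟩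
    · exfalso
      have h0 : N₁ ^ 2 = -(a ^ 2 * b ^ 2) := by rw [← hN₁, ha, hb]; ring
      have h1 : a ^ 2 * b ^ 2 = 0 := by nlinarith [sq_nonneg N₁, sq_nonneg (a * b)]
      rcases mul_eq_zero.mp h1 with h | h
      · exact hA0' (by rw [ha, h])
      · exact hB0' (by rw [hb, h]; ring)
    · exfalso
      have h0 : N₁ ^ 2 = -(a ^ 2 * b ^ 2) := by rw [← hN₁, ha, hb]; ring
      have h1 : a ^ 2 * b ^ 2 = 0 := by nlinarith [sq_nonneg N₁, sq_nonneg (a * b)]
      rcases mul_eq_zero.mp h1 with h | h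
      · exact hA0' (by rw [ha, h]; ring)
      · exact hB0' (by rw [hb, h])
    · exact Or.inr ⟨ha, hb⟩
  -- write g = c^2 * e
  have hce : ∃ c e : ℤ, (g : ℤ) = c ^ 2 * e ∧ (e = 1 ∨ e = 2 ∨ e = 5 ∨ e = 10) := by
    simp only [Finset.mem_insert, Finset.mem_singleton] at hmem
    rcases hmem with h | h | h | h | h | h | h | h | h | h <;> rw [h]
    · exact ⟨1, 1, by norm_num, by norm_num⟩
    · exact ⟨1, 2, by norm_num, by norm_num⟩
    · exact ⟨2, 1, by norm_num, by norm_num⟩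
    · exact ⟨1, 5, by norm_num, by norm_num⟩
    · exact ⟨2, 2, by norm_num, by norm_num⟩
    · exact ⟨1, 10, by norm_num, by norm_num⟩
    · exact ⟨4, 1, by norm_num, by norm_num⟩
    · exact ⟨2, 5, by norm_num, by norm_num⟩
    · exact ⟨2, 10, by norm_num, by norm_num⟩
    · exact ⟨4, 5, by norm_num, by norm_num⟩
  obtain ⟨c, e, hgce, he⟩ := hce
  rcases hsign with ⟨ha, hb⟩ | ⟨ha, hb⟩
  · have e1 : u ^ 2 - z ^ 2 = e * (c * a) ^ 2 := by rw [hA, hgce, ha]; ring
    have e2 : u ^ 2 - 81 * z ^ 2 = e * (c * b) ^ 2 := by rw [hB, hgce, hb]; ring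
    rcases he with rfl | rfl | rfl | rfl
    · exact ⟨c * a, c * b, Or.inl ⟨by rw [e1]; ring, by rw [e2]; ring⟩⟩
    · exact (no_even_class hcop (Or.inl rfl) e1 e2).elim
    · exact ⟨c * a, c * b, Or.inr (Or.inr (Or.inl ⟨e1, e2⟩))⟩
    · exact (no_even_class hcop (Or.inr (Or.inr (Or.inl rfl))) e1 e2).elim
  · have e1 : u ^ 2 - z ^ 2 = (-e) * (c * a) ^ 2 := by rw [hA, hgce, ha]; ring
    have e2 : u ^ 2 - 81 * z ^ 2 = (-e) * (c * b) ^ 2 := by rw [hB, hgce, hb]; ring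
    rcases he with rfl | rfl | rfl | rfl
    · exact ⟨c * a, c * b, Or.inr (Or.inl ⟨by rw [e1]; ring, by rw [e2]; ring⟩)⟩
    · exact (no_even_class hcop (Or.inr (Or.inl rfl)) e1 e2).elim
    · exact ⟨c * a, c * b, Or.inr (Or.inr (Or.inr ⟨by rw [e1]; ring, by rw [e2]; ring⟩))⟩
    · exact (no_even_class hcop (Or.inr (Or.inr (Or.inr rfl))) e1 e2).elim


/-- L1: the class lemma -/
theorem class_lemma {r s W : ℤ} (hs : 0 < s) (hcop : IsCoprime r s)
    (hW : r * s * (r - s) * (r - 81 * s) = W ^ 2)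
    (hr0 : r ≠ 0) (hr1 : r ≠ s) (hr81 : r ≠ 81 * s) :
    ∃ u z v w : ℤ, r = u ^ 2 ∧ s = z ^ 2 ∧ Cls r s v w := by
  -- (a) s is a square
  have hc1 : IsCoprime s (r - s) := by
    have := hcop.symm.add_mul_left_right (-1)
    have e : r + s * (-1) = r - s := by ring
    rwa [e] at this
  have hc2 : IsCoprime s (r - 81 * s) := by
    have := hcop.symm.add_mul_left_right (-81)
    have e : r + s * (-81) = r - 81 * s := by ring
    rwa [e] at this
  have hc3 : IsCoprime s (r * (r - s) * (r - 81 * s)) :=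
    IsCoprime.mul_right (IsCoprime.mul_right hcop.symm hc1) hc2
  have hW' : s * (r * (r - s) * (r - 81 * s)) = W ^ 2 := by rw [← hW]; ring
  obtain ⟨z, rfl⟩ := sq_of_coprime_pos hc3 hW' hs
  have hz : z ≠ 0 := by rintro rfl; simp at hs
  obtain ⟨M₀, -, hM⟩ := sq_div_sq hz hW'
  -- r > 0
  have hMpos : 0 < r * (r - z ^ 2) * (r - 81 * z ^ 2) := by
    have h1 : r * (r - z ^ 2) * (r - 81 * z ^ 2) ≠ 0 :=
      mul_ne_zero (mul_ne_zero hr0 (sub_ne_zero.mpr hr1)) (sub_ne_zero.mpr hr81)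
    have h2 : 0 ≤ r * (r - z ^ 2) * (r - 81 * z ^ 2) := by rw [hM]; exact sq_nonneg _
    exact lt_of_le_of_ne h2 (Ne.symm h1)
  have hrpos : 0 < r := by
    by_contra hneg
    have hr' : r < 0 := lt_of_le_of_ne (not_lt.mp hneg) hr0
    have h1 : r - z ^ 2 < 0 := by linarith
    have h2 : r - 81 * z ^ 2 < 0 := by linarith
    have h3 : 0 < r * (r - z ^ 2) := mul_pos_of_neg_of_neg hr' h1
    have h4 : r * (r - z ^ 2) * (r - 81 * z ^ 2) < 0 := mul_neg_of_pos_of_neg h3 h2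
    linarith
  -- (b) r is a square
  obtain ⟨u, rfl⟩ := r_sq hcop hrpos hM
  have hu : u ≠ 0 := by rintro rfl; simp at hrpos
  -- (c)
  have hM' : u ^ 2 * ((u ^ 2 - z ^ 2) * (u ^ 2 - 81 * z ^ 2)) = M₀ ^ 2 := by rw [← hM]; ring
  obtain ⟨N, -, hN⟩ := sq_div_sq hu hM'
  obtain ⟨v, w, hcls⟩ := cls_of_sq hcop hr1 hr81 hN
  exact ⟨u, z, v, w, rfl, rfl, hcls⟩

/-- The main descent: the concordant system has only trivial solutions. -/
theorem c1_descent : ∀ (n : ℕ) (u z a b : ℤ), u.natAbs = n → u ^ 2 - z ^ 2 = a ^ 2 →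
    u ^ 2 - 81 * z ^ 2 = b ^ 2 → z = 0 := by
  intro n
  induction n using Nat.strong_induction_on with
  | _ n ih =>
  intro u z a b hn h1 h2
  by_contra hz
  -- normalise signs
  set U : ℤ := |u| with hU
  set A : ℤ := |a| with hA
  set B : ℤ := |b| with hB
  have hU2 : U ^ 2 = u ^ 2 := sq_abs u
  have hA2 : A ^ 2 = a ^ 2 := sq_abs a
  have hB2 : B ^ 2 = b ^ 2 := sq_abs b
  have hU0 : 0 ≤ U := abs_nonneg u
  have hA0 : 0 ≤ A := abs_nonneg a
  have hB0 : 0 ≤ B := abs_nonneg b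
  have H1 : U ^ 2 - z ^ 2 = A ^ 2 := by rw [hU2, hA2]; exact h1
  have H2 : U ^ 2 - 81 * z ^ 2 = B ^ 2 := by rw [hU2, hB2]; exact h2
  have hz2 : 0 < z ^ 2 := by positivity
  have hAU : A < U := by
    by_contra hcon
    have : U ^ 2 ≤ A ^ 2 := by nlinarith
    linarith
  have hBU : B < U := by
    by_contra hcon
    have : U ^ 2 ≤ B ^ 2 := by nlinarith
    linarith
  have hUpos : 0 < U := by linarith
  have hden : (U - A) * (U + A) = z ^ 2 := by linarith [H1]
  have hnum : (U - B) * (U + B) = 81 * z ^ 2 := by linarith [H2]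
  have h81 : 81 * z ^ 2 ≤ U ^ 2 := by nlinarith [sq_nonneg B]
  have hUz : U ≤ z ^ 2 := by nlinarith
  have hU81 : 81 ≤ U := by nlinarith
  have hdenU : 81 * (U - A) ≤ U := by nlinarith
  have hnumU : U - B ≤ U := by linarith
  have hAB : A ≠ B := by
    intro h
    have : A ^ 2 = B ^ 2 := by rw [h]
    nlinarith
  have hkey : (U - B) * (A - B) * (U - A) = z ^ 2 * (81 * A - 80 * U - B) := by
    have e1 : z ^ 2 = U ^ 2 - A ^ 2 := by linarith
    have e2 : B ^ 2 = 81 * A ^ 2 - 80 * U ^ 2 := by linarith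
    rw [e1]
    linear_combination (U - A) * e2
  -- the reduced fraction
  set g : ℕ := Int.gcd (U - B) (U - A) with hg
  have hnum0 : U - B ≠ 0 := by linarith
  have hden0 : U - A ≠ 0 := by linarith
  have hgpos : 0 < g := Int.gcd_pos_of_ne_zero_left _ hnum0
  have hgne : (g : ℤ) ≠ 0 := by exact_mod_cast hgpos.ne'
  have hg1 : (1 : ℤ) ≤ g := by exact_mod_cast hgpos
  obtain ⟨r, hr⟩ : (g : ℤ) ∣ U - B := Int.gcd_dvd_left _ _
  obtain ⟨s, hs⟩ : (g : ℤ) ∣ U - A := Int.gcd_dvd_right _ _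
  have hcop : IsCoprime r s := by
    have := Int.gcd_div_gcd_div_gcd (i := U - B) (j := U - A) hgpos
    rw [← hg] at this
    rw [hr, hs, Int.mul_ediv_cancel_left _ hgne, Int.mul_ediv_cancel_left _ hgne] at this
    exact Int.isCoprime_iff_gcd_eq_one.mpr this
  have hrpos : 0 < r := by
    have : 0 < (g : ℤ) * r := by rw [← hr]; linarith
    exact (mul_pos_iff_of_pos_left (by exact_mod_cast hgpos)).mp this
  have hspos : 0 < s := by
    have : 0 < (g : ℤ) * s := by rw [← hs]; linarith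
    exact (mul_pos_iff_of_pos_left (by exact_mod_cast hgpos)).mp this
  have hrU : r ≤ U := by nlinarith
  have hsU : 81 * s ≤ U := by nlinarith
  have hrs : r ≠ s := by
    intro h
    apply hAB
    have : U - B = U - A := by rw [hr, hs, h]
    linarith
  have hr81 : r ≠ 81 * s := by
    intro h
    have e : 81 * A - 80 * U - B = 0 := by
      have : U - B = 81 * (U - A) := by rw [hr, hs, h]; ring
      linarith
    rw [e, mul_zero] at hkey
    have h3 : A - B ≠ 0 := sub_ne_zero.mpr hAB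
    exact mul_ne_zero (mul_ne_zero hnum0 h3) hden0 hkey
  have hW : ∃ W : ℤ, r * s * (r - s) * (r - 81 * s) = W ^ 2 := by
    have hsq : (z * (g : ℤ) ^ 2) ^ 2 * (r * s * (r - s) * (r - 81 * s)) =
        ((U - B) * (U - A) * (A - B)) ^ 2 := by
      have e3 : (g : ℤ) * (r - s) = A - B := by
        have : (g : ℤ) * (r - s) = (U - B) - (U - A) := by rw [hr, hs]; ring
        rw [this]; ring
      have e4 : (g : ℤ) * (r - 81 * s) = 81 * A - 80 * U - B := by
        have : (g : ℤ) * (r - 81 * s) = (U - B) - 81 * (U - A) := by rw [hr, hs]; ring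
        rw [this]; ring
      calc (z * (g : ℤ) ^ 2) ^ 2 * (r * s * (r - s) * (r - 81 * s))
          = ((g : ℤ) * r) * ((g : ℤ) * s) * ((g : ℤ) * (r - s)) *
              (z ^ 2 * ((g : ℤ) * (r - 81 * s))) := by ring
        _ = (U - B) * (U - A) * (A - B) * (z ^ 2 * (81 * A - 80 * U - B)) := by
              rw [← hr, ← hs, e3, e4]
        _ = ((U - B) * (U - A) * (A - B)) ^ 2 := by rw [← hkey]; ring
    obtain ⟨W, -, hW⟩ := sq_div_sq (mul_ne_zero hz (pow_ne_zero 2 hgne)) hsq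
    exact ⟨W, hW⟩
  obtain ⟨W, hW⟩ := hW
  obtain ⟨u', z', v', w', hru, hsz, hcls⟩ := class_lemma hspos hcop hW hrpos.ne' hrs hr81
  have hnU : (n : ℤ) = U := by rw [← hn, hU]; exact Int.natCast_natAbs u
  have hlt : ∀ x : ℤ, x ^ 2 < U ^ 2 → x.natAbs < n := by
    intro x hx
    rw [← hn]
    exact Int.natAbs_lt_iff_sq_lt.mpr (by rw [← hU2]; exact hx)
  have hUU : U < U ^ 2 := by
    have : U * 2 ≤ U * U := mul_le_mul_of_nonneg_left (by linarith) hU0
    rw [sq]; linarith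
  have hU2pos : 0 < U ^ 2 := by positivity
  rcases hcls with ⟨c1, c2⟩ | ⟨c1, c2⟩ | ⟨c1, c2⟩ | ⟨c1, c2⟩
  · -- class 1
    have hz' : z' = 0 := ih _ (hlt u' (by rw [← hru]; linarith)) u' z' v' w' rfl
      (by rw [← hru, ← hsz]; exact c1) (by rw [← hru, ← hsz]; exact c2)
    rw [hz'] at hsz
    simp at hsz
    linarith
  · -- class -1
    have hsize : (9 * z') ^ 2 < U ^ 2 := by
      have e : (9 * z') ^ 2 = 81 * s := by rw [hsz]; ring
      rw [e]; linarith
    have hu' : u' = 0 := ih _ (hlt (9 * z') hsize) (9 * z') u' w' (9 * v') rfl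
      (by linear_combination -c2 + hru - 81 * hsz)
      (by linear_combination -81 * c1 + 81 * hru - 81 * hsz)
    rw [hu'] at hru
    simp at hru
    linarith
  · -- class 5
    have hsize : (9 * v') ^ 2 < U ^ 2 := by
      have e : 5 * (9 * v') ^ 2 = 81 * (r - s) := by rw [c1]; ring
      have h2 : 81 * U ≤ U * U := mul_le_mul_of_nonneg_right hU81 hU0
      have h3 : U * U = U ^ 2 := (sq U).symm
      linarith
    have hw' : w' = 0 := ih _ (hlt (9 * v') hsize) (9 * v') w' (4 * u') (36 * z') rfl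
      (by
        have : 5 * ((9 * v') ^ 2 - w' ^ 2) = 5 * (4 * u') ^ 2 := by
          linear_combination (-81) * c1 + c2 + 80 * hru
        exact mul_left_cancel₀ (by norm_num) this)
      (by
        have : 5 * ((9 * v') ^ 2 - 81 * w' ^ 2) = 5 * (36 * z') ^ 2 := by
          linear_combination (-81) * c1 + 81 * c2 + 6480 * hsz
        exact mul_left_cancel₀ (by norm_num) this)
    rw [hw'] at c2
    simp at c2
    exact hr81 (by linarith)
  · -- class -5
    have hsize : w' ^ 2 < U ^ 2 := by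
      have e : 5 * w' ^ 2 = 81 * s - r := by linarith
      linarith
    have hv' : v' = 0 := ih _ (hlt w' hsize) w' v' (4 * z') (4 * u') rfl
      (by
        have : 5 * (w' ^ 2 - v' ^ 2) = 5 * (4 * z') ^ 2 := by
          linear_combination (-1) * c1 + c2 + 80 * hsz
        exact mul_left_cancel₀ (by norm_num) this)
      (by
        have : 5 * (w' ^ 2 - 81 * v' ^ 2) = 5 * (4 * u') ^ 2 := by
          linear_combination (-81) * c1 + c2 + 80 * hru
        exact mul_left_cancel₀ (by norm_num) this)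
    rw [hv'] at c1
    simp at c1
    exact hrs (by linarith)

/-- The rational points of `Y^2 = X (X - 1) (X - 81)` (curve 15a3-type model) are the
2-torsion points only. -/
theorem E2_points (X Y : ℚ) (h : Y ^ 2 = X * (X - 1) * (X - 81)) :
    X = 0 ∨ X = 1 ∨ X = 81 := by
  by_contra hne
  rw [not_or, not_or] at hne
  obtain ⟨h0, h1, h81⟩ := hne
  obtain ⟨r, hr⟩ : ∃ r : ℤ, r = X.num := ⟨_, rfl⟩
  obtain ⟨s, hs⟩ : ∃ s : ℤ, s = (X.den : ℤ) := ⟨_, rfl⟩
  have hspos : 0 < s := by rw [hs]; exact_mod_cast X.den_pos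
  have hs0 : (s : ℚ) ≠ 0 := by exact_mod_cast hspos.ne'
  have hcop : IsCoprime r s := by
    rw [Int.isCoprime_iff_gcd_eq_one, hr, hs]
    have := X.reduced
    simpa [Int.gcd, Nat.Coprime] using this
  have hX : X = (r : ℚ) / (s : ℚ) := by
    rw [hr, hs]; exact_mod_cast (Rat.num_div_den X).symm
  have hsq : IsSquare ((r * s * (r - s) * (r - 81 * s) : ℤ) : ℚ) := by
    refine ⟨Y * (s : ℚ) ^ 2, ?_⟩
    have e : Y ^ 2 = ((r : ℚ) / s) * ((r : ℚ) / s - 1) * ((r : ℚ) / s - 81) := by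
      rw [← hX]; exact h
    push_cast
    have e2 : (Y * (s : ℚ) ^ 2) * (Y * (s : ℚ) ^ 2) = Y ^ 2 * (s : ℚ) ^ 4 := by ring
    rw [e2, e]
    field_simp
  rw [Rat.isSquare_intCast_iff] at hsq
  obtain ⟨W, hW⟩ := hsq
  have hr0 : r ≠ 0 := by
    intro hh; apply h0; rw [hX, hh]; simp
  have hr1 : r ≠ s := by
    intro hh; apply h1; rw [hX, hh]; field_simp
  have hr81 : r ≠ 81 * s := by
    intro hh; apply h81; rw [hX, hh]; push_cast; field_simp
  obtain ⟨u, z, v, w, hru, hsz, hcls⟩ :=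
    class_lemma hspos hcop (W := W) (by rw [hW]; ring) hr0 hr1 hr81
  have hz0 : z ≠ 0 := by
    rintro rfl
    simp at hsz
    omega
  have hu0 : u ≠ 0 := by
    rintro rfl
    simp at hru
    exact hr0 hru
  rcases hcls with ⟨c1, c2⟩ | ⟨c1, c2⟩ | ⟨c1, c2⟩ | ⟨c1, c2⟩
  · exact hz0 (c1_descent _ u z v w rfl (by rw [← hru, ← hsz]; exact c1)
      (by rw [← hru, ← hsz]; exact c2))
  · exact hu0 (c1_descent _ (9 * z) u w (9 * v) rfl
      (by linear_combination -c2 + hru - 81 * hsz)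
      (by linear_combination -81 * c1 + 81 * hru - 81 * hsz))
  · have hw : w = 0 := c1_descent _ (9 * v) w (4 * u) (36 * z) rfl
      (by
        have : 5 * ((9 * v) ^ 2 - w ^ 2) = 5 * (4 * u) ^ 2 := by
          linear_combination (-81) * c1 + c2 + 80 * hru
        exact mul_left_cancel₀ (by norm_num) this)
      (by
        have : 5 * ((9 * v) ^ 2 - 81 * w ^ 2) = 5 * (36 * z) ^ 2 := by
          linear_combination (-81) * c1 + 81 * c2 + 6480 * hsz
        exact mul_left_cancel₀ (by norm_num) this)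
    rw [hw] at c2
    simp at c2
    exact hr81 (by linarith)
  · have hv : v = 0 := c1_descent _ w v (4 * z) (4 * u) rfl
      (by
        have : 5 * (w ^ 2 - v ^ 2) = 5 * (4 * z) ^ 2 := by
          linear_combination (-1) * c1 + c2 + 80 * hsz
        exact mul_left_cancel₀ (by norm_num) this)
      (by
        have : 5 * (w ^ 2 - 81 * v ^ 2) = 5 * (4 * u) ^ 2 := by
          linear_combination (-81) * c1 + c2 + 80 * hru
        exact mul_left_cancel₀ (by norm_num) this)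
    rw [hv] at c1
    simp at c1
    exact hr1 (by linarith)

/-- The rational points of `Y^2 = X (X + 9) (X - 16)` (conductor 15), via the 2-isogeny
to `Y^2 = X (X - 1) (X - 81)`. -/
theorem Eminus_points (X Y : ℚ) (h : Y ^ 2 = X * (X + 9) * (X - 16)) :
    X = 0 ∨ X = -9 ∨ X = 16 ∨ X = 36 ∨ X = -4 := by
  by_cases h16 : X = 16
  · right; right; left; exact h16
  have hU : X - 16 ≠ 0 := sub_ne_zero.mpr h16
  have key : (Y * ((X - 16) ^ 2 - 400) / (X - 16) ^ 2) ^ 2 =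
      (X * (X + 9) / (X - 16)) * (X * (X + 9) / (X - 16) - 1) *
        (X * (X + 9) / (X - 16) - 81) := by
    have e1 : X * (X + 9) / (X - 16) - 1 = (X + 4) ^ 2 / (X - 16) := by
      field_simp; ring
    have e2 : X * (X + 9) / (X - 16) - 81 = (X - 36) ^ 2 / (X - 16) := by
      field_simp; ring
    rw [e1, e2, div_pow, mul_pow, h]
    field_simp
    ring
  rcases E2_points _ _ key with c | c | c
  · rw [div_eq_zero_iff] at c
    rcases c with c | c
    · rcases mul_eq_zero.mp c with c | c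
      · left; exact c
      · right; left; linarith
    · exact absurd c hU
  · have e : (X + 4) ^ 2 = 0 := by
      rw [div_eq_iff hU] at c
      linear_combination c
    have : X + 4 = 0 := by simpa using e
    right; right; right; right; linarith
  · have e : (X - 36) ^ 2 = 0 := by
      rw [div_eq_iff hU] at c
      linear_combination c
    have : X - 36 = 0 := by simpa using e
    right; right; right; left; linarith

end Descent

/-- **P3**: the rational points of the genus-one quartic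
`V^2 = (f^2 - f - 1) (f^2 + 11 f - 1)`. -/
theorem descent_quartic (f V : ℚ) (h : V ^ 2 = (f ^ 2 - f - 1) * (f ^ 2 + 11 * f - 1)) :
    f = 0 ∨ f = 2 ∨ f = -1 / 2 := by
  obtain ⟨X, hXdef⟩ : ∃ X : ℚ, X = 2 * (V + f ^ 2 + 5 * f - 19) + 36 := ⟨_, rfl⟩
  obtain ⟨Y, hYdef⟩ : ∃ Y : ℚ, Y = 4 * (V + f ^ 2 + 5 * f - 19) * f +
      10 * (V + f ^ 2 + 5 * f - 19) + 180 := ⟨_, rfl⟩
  have hE : Y ^ 2 = X * (X + 9) * (X - 16) := by
    rw [hXdef, hYdef]
    linear_combination (-8 * V - 8 * f ^ 2 - 40 * f + 152) * h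
  have hq : (4 * X - 144) * f ^ 2 + 20 * X * f - (X ^ 2 + 4 * X) = 0 := by
    rw [hXdef]
    linear_combination (-4) * h
  rcases Descent.Eminus_points X Y hE with c | c | c | c | c
  · rw [c] at hq
    have e : f ^ 2 = 0 := by linear_combination (-1 / 144) * hq
    left; simpa using e
  · rw [c] at hq
    have e : (2 * f + 1) ^ 2 = 0 := by linear_combination (-1 / 45) * hq
    have : 2 * f + 1 = 0 := by simpa using e
    right; right; linarith
  · rw [c] at hq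
    have e : (f - 2) ^ 2 = 0 := by linear_combination (-1 / 80) * hq
    have : f - 2 = 0 := by simpa using e
    right; left; linarith
  · rw [c] at hq
    right; left; linarith
  · rw [c] at hq
    have e : f * (2 * f + 1) = 0 := by linear_combination (-1 / 80) * hq
    rcases mul_eq_zero.mp e with e | e
    · left; exact e
    · right; right; linarith

end Fermat.Agent.S51
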