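import Mathlib

/-!
# S51: the cubic model `v² = M (1 - M) (25 - 9 M)` of `X₀(15)` implies the quartic descent.
-/

set_option autoImplicit false

namespace Fermat.Agent.S51

theorem descent_quartic_of_rat_points
    (hrp : ∀ M v : ℚ, v ^ 2 = M * (1 - M) * (25 - 9 * M) →
      M = 0 ∨ M = 1 ∨ M = 25 / 9 ∨ M = 5 ∨ M = 5 / 9)
    (f V : ℚ) (h : V ^ 2 = (f ^ 2 - f - 1) * (f ^ 2 + 11 * f - 1)) :
    f = 0 ∨ f = 2 ∨ f = -1 / 2 := by
  by_cases hf : f = 0
  · exact Or.inl hf
  right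
  obtain ⟨z, hz⟩ : ∃ z : ℚ, z = (V - (f ^ 2 + 5 * f - 1)) / 2 := ⟨_, rfl⟩
  have hV : V = 2 * z + (f ^ 2 + 5 * f - 1) := by rw [hz]; ring
  have hrel : f ^ 2 * (z + 9) + 5 * z * f + z ^ 2 - z = 0 := by
    rw [hV] at h
    linear_combination (1 / 4 : ℚ) * h
  have hcub : ((4 / 9 : ℚ) * (2 * f * (z + 9) + 5 * z)) ^ 2 =
      (1 - 4 * z / 9) * (1 - (1 - 4 * z / 9)) * (25 - 9 * (1 - 4 * z / 9)) := by
    linear_combination (64 / 81 : ℚ) * (z + 9) * hrel
  rcases hrp _ _ hcub with hM | hM | hM | hM | hM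
  · -- z = 9/4
    have hz' : z = 9 / 4 := by linear_combination (-9 / 4 : ℚ) * hM
    rw [hz'] at hrel
    right
    have h2 : (2 * f + 1) ^ 2 = 0 := by linear_combination (16 / 45 : ℚ) * hrel
    have h3 : 2 * f + 1 = 0 := pow_eq_zero_iff (by norm_num) |>.mp h2
    linear_combination (1 / 2 : ℚ) * h3
  · -- z = 0
    have hz' : z = 0 := by linear_combination (-9 / 4 : ℚ) * hM
    rw [hz'] at hrel
    exfalso
    apply hf
    have h2 : f ^ 2 = 0 := by linear_combination (1 / 9 : ℚ) * hrel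
    exact pow_eq_zero_iff (by norm_num) |>.mp h2
  · -- z = -4
    have hz' : z = -4 := by linear_combination (-9 / 4 : ℚ) * hM
    rw [hz'] at hrel
    left
    have h2 : (f - 2) ^ 2 = 0 := by linear_combination (1 / 5 : ℚ) * hrel
    have h3 : f - 2 = 0 := pow_eq_zero_iff (by norm_num) |>.mp h2
    linear_combination h3
  · -- z = -9
    have hz' : z = -9 := by linear_combination (-9 / 4 : ℚ) * hM
    rw [hz'] at hrel
    left
    linear_combination (-1 / 45 : ℚ) * hrel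
  · -- z = 1
    have hz' : z = 1 := by linear_combination (-9 / 4 : ℚ) * hM
    rw [hz'] at hrel
    right
    have h2 : f * (2 * f + 1) = 0 := by linear_combination (1 / 5 : ℚ) * hrel
    rcases mul_eq_zero.mp h2 with h0 | h0
    · exact absurd h0 hf
    · linear_combination (1 / 2 : ℚ) * h0

end Fermat.Agent.S51
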