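import Fermat.Agent.S51.Defs

/-!
# S51: duplication formula in the normalized x-coordinate, and its consequences for
points of order 3 and 5.
-/

set_option autoImplicit false

namespace Fermat.Agent.S51

open WeierstrassCurve

variable {K : Type*} [Field K] [DecidableEq K] [CharZero K]

omit [DecidableEq K] in
theorem four_fpol_eq (E : WeierstrassCurve K) {x y : K} (h : E.toAffine.Equation x y) :
    4 * fpol (cA E) (cB E) (x + E.b₂ / 12) = (y - E.toAffine.negY x y) ^ 2 := by
  rw [Affine.equation_iff] at h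
  simp only [fpol, cA, cB, Affine.negY, WeierstrassCurve.b₂, WeierstrassCurve.b₄,
    WeierstrassCurve.b₆, WeierstrassCurve.c₄, WeierstrassCurve.c₆]
  linear_combination (-4 : K) * h

theorem addX_slope_eq (E : WeierstrassCurve K) {x y : K} (h : E.toAffine.Equation x y)
    (hy : y ≠ E.toAffine.negY x y) :
    (y - E.toAffine.negY x y) ^ 2 *
      (E.toAffine.addX x x (E.toAffine.slope x x y y) + E.b₂ / 12) =
      Npol (cA E) (cB E) (x + E.b₂ / 12) := by
  have hd : y - E.toAffine.negY x y ≠ 0 := sub_ne_zero.mpr hy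
  rw [Affine.slope_of_Y_ne rfl hy]
  rw [Affine.equation_iff] at h
  simp only [Affine.addX]
  field_simp
  simp only [Npol, cA, cB, Affine.negY, WeierstrassCurve.b₂, WeierstrassCurve.b₄,
    WeierstrassCurve.b₆, WeierstrassCurve.c₄, WeierstrassCurve.c₆]
  linear_combination (-96 * x - 8 * E.a₁ ^ 2 - 32 * E.a₂ : K) * h

/-- (L-dbl) duplication formula in the normalized coordinate. -/
theorem xi_double (E : WeierstrassCurve K) {x y : K} (h : E.toAffine.Nonsingular x y)
    (hy : y ≠ E.toAffine.negY x y) :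
    ∃ (x' y' : K) (h' : E.toAffine.Nonsingular x' y'),
      Affine.Point.some x y h + Affine.Point.some x y h = Affine.Point.some x' y' h' ∧
      fpol (cA E) (cB E) (x + E.b₂ / 12) ≠ 0 ∧
      4 * fpol (cA E) (cB E) (x + E.b₂ / 12) * (x' + E.b₂ / 12) =
        Npol (cA E) (cB E) (x + E.b₂ / 12) := by
  have hd : y - E.toAffine.negY x y ≠ 0 := sub_ne_zero.mpr hy
  have h4 := four_fpol_eq E h.1
  refine ⟨_, _, _, Affine.Point.add_self_of_Y_ne hy, ?_, ?_⟩
  · intro h0
    rw [h0, mul_zero] at h4
    exact hd (pow_eq_zero_iff (by norm_num) |>.mp h4.symm)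
  · rw [h4]
    exact addX_slope_eq E h.1 hy

omit [DecidableEq K] [CharZero K] in
/-- (Lxi) -/
theorem xi_eq_xi_iff (E : WeierstrassCurve K) {P Q : E.toAffine.Point} (hP : P ≠ 0) (hQ : Q ≠ 0) :
    xi E P = xi E Q ↔ P = Q ∨ P = -Q := by
  rcases P with _ | ⟨x₁, y₁, h₁⟩
  · exact absurd rfl hP
  rcases Q with _ | ⟨x₂, y₂, h₂⟩
  · exact absurd rfl hQ
  simp only [xi]
  rw [add_left_inj]
  exact Affine.Point.X_eq_iff

omit [DecidableEq K] [CharZero K] in
theorem xi_some (E : WeierstrassCurve K) {x y : K} (h : E.toAffine.Nonsingular x y) :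
    xi E (Affine.Point.some x y h) = x + E.b₂ / 12 := rfl

/-- (L3a) -/
theorem psi3_xi_of_three_nsmul (E : WeierstrassCurve K) (P : E.toAffine.Point) (hP : P ≠ 0)
    (h3 : (3 : ℕ) • P = 0) : psi3 (cA E) (cB E) (xi E P) = 0 := by
  rcases P with _ | ⟨x, y, h⟩
  · exact absurd rfl hP
  have h3' : Affine.Point.some x y h + Affine.Point.some x y h = -Affine.Point.some x y h := by
    have e : (3 : ℕ) • Affine.Point.some x y h =
        Affine.Point.some x y h + Affine.Point.some x y h + Affine.Point.some x y h := by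
      rw [succ_nsmul, two_nsmul]
    rw [e] at h3
    exact eq_neg_of_add_eq_zero_left h3
  by_cases hy : y = E.toAffine.negY x y
  · exfalso
    rw [Affine.Point.add_self_of_Y_eq hy] at h3'
    exact hP (neg_eq_zero.mp h3'.symm)
  · obtain ⟨x', y', h', hadd, hf, hN⟩ := xi_double E h hy
    rw [hadd, Affine.Point.neg_some] at h3'
    have hx : x' = x := by
      injection h3'
    rw [hx] at hN
    rw [xi_some]
    simp only [psi3, fpol, Npol] at hN ⊢
    linear_combination hN

/-- (L5a) -/
theorem xi_of_five_nsmul (E : WeierstrassCurve K) (P : E.toAffine.Point) (hP : P ≠ 0)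
    (h5 : (5 : ℕ) • P = 0) :
    xi E P ≠ xi E ((2 : ℕ) • P) ∧
    4 * fpol (cA E) (cB E) (xi E P) * xi E ((2 : ℕ) • P) = Npol (cA E) (cB E) (xi E P) ∧
    4 * fpol (cA E) (cB E) (xi E ((2 : ℕ) • P)) * xi E P =
      Npol (cA E) (cB E) (xi E ((2 : ℕ) • P)) := by
  rcases P with _ | ⟨x, y, h⟩
  · exact absurd rfl hP
  -- `P` is not 2-torsion
  have hy : y ≠ E.toAffine.negY x y := by
    intro hy
    apply hP
    have h2 : (2 : ℕ) • Affine.Point.some x y h = 0 := by
      rw [two_nsmul]; exact Affine.Point.add_self_of_Y_eq hy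
    have e : Affine.Point.some x y h =
        (5 : ℕ) • Affine.Point.some x y h - (2 : ℕ) • (2 : ℕ) • Affine.Point.some x y h := by
      module
    rw [e, h5, h2, nsmul_zero, sub_zero]
  obtain ⟨x', y', h', hadd, hf, hN⟩ := xi_double E h hy
  have h2P : (2 : ℕ) • Affine.Point.some x y h = Affine.Point.some x' y' h' := by
    rw [two_nsmul]; exact hadd
  -- `2P` is not 2-torsion
  have hy' : y' ≠ E.toAffine.negY x' y' := by
    intro hy'
    apply hP
    have h4 : (2 : ℕ) • (2 : ℕ) • Affine.Point.some x y h = 0 := by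
      rw [h2P, two_nsmul]; exact Affine.Point.add_self_of_Y_eq hy'
    have e : Affine.Point.some x y h =
        (5 : ℕ) • Affine.Point.some x y h - (2 : ℕ) • (2 : ℕ) • Affine.Point.some x y h := by
      module
    rw [e, h5, h4, sub_zero]
  obtain ⟨x'', y'', h'', hadd', hf', hN'⟩ := xi_double E h' hy'
  -- `4P = -P`
  have h4P : Affine.Point.some x'' y'' h'' = -Affine.Point.some x y h := by
    rw [← hadd', ← h2P]
    have e : (2 : ℕ) • Affine.Point.some x y h + (2 : ℕ) • Affine.Point.some x y h =
        -Affine.Point.some x y h + (5 : ℕ) • Affine.Point.some x y h := by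
      module
    rw [e, h5, add_zero]
  rw [Affine.Point.neg_some] at h4P
  have hx'' : x'' = x := by
    injection h4P
  rw [hx''] at hN'
  rw [h2P, xi_some, xi_some]
  refine ⟨?_, hN, hN'⟩
  -- `x' ≠ x`
  intro hxx
  have hxx' : x = x' := add_right_cancel hxx
  apply hP
  rcases (Affine.Point.X_eq_iff (h₁ := h) (h₂ := h')).mp hxx' with hc | hc
  · -- P = 2P
    rw [← h2P] at hc
    have e : Affine.Point.some x y h =
        (2 : ℕ) • Affine.Point.some x y h - Affine.Point.some x y h := by module
    rw [e, ← hc, sub_self]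
  · -- P = -2P, so 3P = 0
    rw [← h2P] at hc
    have h3 : (3 : ℕ) • Affine.Point.some x y h = 0 := by
      have e : (3 : ℕ) • Affine.Point.some x y h =
          Affine.Point.some x y h + (2 : ℕ) • Affine.Point.some x y h := by module
      rw [e]
      nth_rewrite 1 [hc]
      exact neg_add_cancel _
    have e : Affine.Point.some x y h =
        (2 : ℕ) • (3 : ℕ) • Affine.Point.some x y h - (5 : ℕ) • Affine.Point.some x y h := by
      module
    rw [e, h5, h3, nsmul_zero, sub_zero]

end Fermat.Agent.S51
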