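import Mathlib

/-!
# S51 helper definitions: normalized x-coordinate and short Weierstrass invariants.
-/

set_option autoImplicit false

namespace Fermat.Agent.S51

open WeierstrassCurve

variable {K : Type*} [Field K]

/-- The short Weierstrass coefficient `A = -c₄/48`. -/
noncomputable def cA (E : WeierstrassCurve K) : K := -E.c₄ / 48

/-- The short Weierstrass coefficient `B = -c₆/864`. -/
noncomputable def cB (E : WeierstrassCurve K) : K := -E.c₆ / 864

/-- The normalized x-coordinate `ξ = x + b₂/12` of an affine point (junk value `0` at infinity). -/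
noncomputable def xi (E : WeierstrassCurve K) : E.toAffine.Point → K
  | .zero => 0
  | .some x _ _ => x + E.b₂ / 12

/-- The cubic `t³ + A t + B`. -/
def fpol (A B t : K) : K := t ^ 3 + A * t + B

/-- Numerator of the duplication map. -/
def Npol (A B t : K) : K := t ^ 4 - 2 * A * t ^ 2 - 8 * B * t + A ^ 2

/-- The 3-division polynomial. -/
def psi3 (A B t : K) : K := 3 * t ^ 4 + 6 * A * t ^ 2 + 12 * B * t - A ^ 2

end Fermat.Agent.S51
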