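import Fermat.Agent.S51.Dbl

/-!
# S51: existence of nonzero 3- and 5-torsion points over an algebraically closed field
(piece P1b; the finiteness statements live in `TorsFin.lean`).
-/

set_option autoImplicit false

namespace Fermat.Agent.S51

open WeierstrassCurve

namespace Tors

section Identities

variable {K : Type*} [Field K]

theorem N_eq (A B t : K) : Npol A B t = t * (4 * fpol A B t) - psi3 A B t := by
  unfold Npol fpol psi3; ring

theorem res_eq (A B t : K) :
    (3 * t ^ 2 + 4 * A) * Npol A B t - (3 * t ^ 3 - 5 * A * t - 27 * B) * fpol A B t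
      = 4 * A ^ 3 + 27 * B ^ 2 := by
  unfold Npol fpol; ring

/-- The auxiliary sextic `H`. -/
def Hpol (A B t : K) : K :=
  t ^ 6 + 5 * A * t ^ 4 + 20 * B * t ^ 3 - 5 * A ^ 2 * t ^ 2 - 4 * A * B * t - 8 * B ^ 2 - A ^ 3

/-- The 5-division polynomial. -/
def psi5 (A B t : K) : K := 32 * fpol A B t ^ 2 * Hpol A B t - psi3 A B t ^ 3

theorem H_eq (A B t : K) :
    Hpol A B t = (3 * t ^ 2 + A) * psi3 A B t - 8 * fpol A B t ^ 2 := by
  unfold Hpol fpol psi3; ring

theorem H_sq (A B t : K) :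
    Npol A B t ^ 3 + A * Npol A B t * (4 * fpol A B t) ^ 2 + B * (4 * fpol A B t) ^ 3
      = Hpol A B t ^ 2 := by
  unfold Hpol fpol Npol; ring

theorem quad_eq (A B t : K) :
    Npol A B t ^ 4 - 2 * A * Npol A B t ^ 2 * (4 * fpol A B t) ^ 2
        - 8 * B * Npol A B t * (4 * fpol A B t) ^ 3 + A ^ 2 * (4 * fpol A B t) ^ 4
        - t * 4 * (4 * fpol A B t) *
          (Npol A B t ^ 3 + A * Npol A B t * (4 * fpol A B t) ^ 2 + B * (4 * fpol A B t) ^ 3)
      = - (psi3 A B t * psi5 A B t) := by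
  unfold psi5 Hpol fpol Npol psi3; ring

/-- If `M v = N` with `M = 4 f(u)`, `N = N(u)`, then `f(v) M³ = H(u)²`. -/
theorem f_dbl (A B u v : K) (h : 4 * fpol A B u * v = Npol A B u) :
    fpol A B v * (4 * fpol A B u) ^ 3 = Hpol A B u ^ 2 := by
  rw [← H_sq, ← h]; unfold fpol; ring

/-- If `M v = N` with `M = 4 f(u)`, `N = N(u)`, then
`(N(v) - 4 f(v) u) M⁴ = - psi3(u) psi5(u)`. -/
theorem quad_dbl (A B u v : K) (h : 4 * fpol A B u * v = Npol A B u) :
    (Npol A B v - 4 * fpol A B v * u) * (4 * fpol A B u) ^ 4 = - (psi3 A B u * psi5 A B u) := by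
  rw [← quad_eq, ← h]; unfold fpol Npol; ring

open Polynomial in
/-- The 3-division polynomial as a polynomial. -/
noncomputable def psi3P (A B : K) : Polynomial K :=
  C 3 * X ^ 4 + C (6 * A) * X ^ 2 + C (12 * B) * X - C (A ^ 2)

open Polynomial in
/-- The 5-division polynomial as a polynomial. -/
noncomputable def psi5P (A B : K) : Polynomial K :=
  C 5 * X ^ 12 + C (62 * A) * X ^ 10 + C (380 * B) * X ^ 9 - C (105 * A ^ 2) * X ^ 8
    + C (240 * A * B) * X ^ 7 - C (300 * A ^ 3 + 240 * B ^ 2) * X ^ 6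
    - C (696 * A ^ 2 * B) * X ^ 5
    - C (125 * A ^ 4 + 1920 * A * B ^ 2) * X ^ 4 - C (80 * A ^ 3 * B + 1600 * B ^ 3) * X ^ 3
    - C (50 * A ^ 5 + 240 * A ^ 2 * B ^ 2) * X ^ 2 - C (100 * A ^ 4 * B + 640 * A * B ^ 3) * X
    + C (A ^ 6 - 32 * A ^ 3 * B ^ 2 - 256 * B ^ 4)

theorem eval_psi3P (A B t : K) : (psi3P A B).eval t = psi3 A B t := by
  simp [psi3P, psi3]

theorem eval_psi5P (A B t : K) : (psi5P A B).eval t = psi5 A B t := by
  simp only [psi5P, psi5, Hpol, fpol, psi3, Polynomial.eval_add, Polynomial.eval_sub,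
    Polynomial.eval_mul, Polynomial.eval_C, Polynomial.eval_pow, Polynomial.eval_X]
  ring

variable [CharZero K]

theorem natDegree_psi3P (A B : K) : (psi3P A B).natDegree = 4 := by
  unfold psi3P
  compute_degree!

theorem natDegree_psi5P (A B : K) : (psi5P A B).natDegree = 12 := by
  unfold psi5P
  compute_degree!

theorem psi3P_ne_zero (A B : K) : psi3P A B ≠ 0 := by
  intro h
  have := natDegree_psi3P A B
  rw [h] at this
  simp at this

theorem psi5P_ne_zero (A B : K) : psi5P A B ≠ 0 := by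
  intro h
  have := natDegree_psi5P A B
  rw [h] at this
  simp at this

end Identities

section Curve

variable {K : Type*} [Field K] [CharZero K]

theorem disc_eq (E : WeierstrassCurve K) : 4 * cA E ^ 3 + 27 * cB E ^ 2 = - E.Δ / 16 := by
  have h := E.c_relation
  unfold cA cB
  linear_combination (1 / 27648 : K) * h

theorem four_f (E : WeierstrassCurve K) {x y : K} (h : E.toAffine.Equation x y) :
    4 * fpol (cA E) (cB E) (x + E.b₂ / 12) = (y - E.toAffine.negY x y) ^ 2 := by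
  rw [Affine.equation_iff] at h
  simp only [fpol, cA, cB, Affine.negY, c₄, c₆, b₂, b₄, b₆]
  linear_combination (-4 : K) * h

theorem Y_ne_of_f_ne (E : WeierstrassCurve K) {x y : K} (h : E.toAffine.Equation x y)
    (hf : fpol (cA E) (cB E) (x + E.b₂ / 12) ≠ 0) : y ≠ E.toAffine.negY x y := by
  intro hy
  apply hf
  have h4 := four_f E h
  have h0 : y - E.toAffine.negY x y = 0 := sub_eq_zero.mpr hy
  rw [h0] at h4
  have : (4 : K) ≠ 0 := by norm_num
  simpa [this] using h4

theorem N_ne_zero_of_f_eq_zero (E : WeierstrassCurve K) (hΔ : E.Δ ≠ 0) (t : K)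
    (hf : fpol (cA E) (cB E) t = 0) : Npol (cA E) (cB E) t ≠ 0 := by
  intro hN
  have h := res_eq (cA E) (cB E) t
  rw [hN, hf, disc_eq] at h
  apply hΔ
  linear_combination (16 : K) * h

theorem f_ne_zero_of_psi3 (E : WeierstrassCurve K) (hΔ : E.Δ ≠ 0) (t : K)
    (h3 : psi3 (cA E) (cB E) t = 0) : fpol (cA E) (cB E) t ≠ 0 := by
  intro hf
  apply N_ne_zero_of_f_eq_zero E hΔ t hf
  rw [N_eq, hf, h3]; ring

theorem exists_point [IsAlgClosed K] (E : WeierstrassCurve K) (hΔ : E.Δ ≠ 0) (t : K) :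
    ∃ (x y : K) (_ : E.toAffine.Nonsingular x y), x + E.b₂ / 12 = t := by
  obtain ⟨s, hs⟩ := IsAlgClosed.exists_pow_nat_eq (4 * fpol (cA E) (cB E) t) (n := 2)
    (by norm_num)
  refine ⟨t - E.b₂ / 12, (s - E.a₁ * (t - E.b₂ / 12) - E.a₃) / 2, ?_, by ring⟩
  rw [← Affine.equation_iff_nonsingular_of_Δ_ne_zero hΔ, Affine.equation_iff]
  simp only [fpol, cA, cB, c₄, c₆, b₂, b₄, b₆] at hs ⊢
  linear_combination (1 / 4 : K) * hs

end Curve

end Tors

section Main

variable {K : Type*} [Field K] [DecidableEq K] [CharZero K]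

open Tors

/-- (L3b) -/
theorem exists_three_torsion [IsAlgClosed K] (E : WeierstrassCurve K) (hΔ : E.Δ ≠ 0) :
    ∃ P : E.toAffine.Point, P ≠ 0 ∧ (3 : ℕ) • P = 0 := by
  obtain ⟨t, ht⟩ : ∃ t : K, psi3 (cA E) (cB E) t = 0 := by
    obtain ⟨t, ht⟩ := IsAlgClosed.exists_root (psi3P (cA E) (cB E)) (by
      rw [Polynomial.degree_eq_natDegree (psi3P_ne_zero _ _), natDegree_psi3P]; norm_num)
    exact ⟨t, by rw [← eval_psi3P]; exact ht⟩
  obtain ⟨x, y, h, rfl⟩ := exists_point E hΔ t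
  have hf := f_ne_zero_of_psi3 E hΔ _ ht
  have hy := Y_ne_of_f_ne E h.1 hf
  obtain ⟨x', y', h', hadd, -, hx'⟩ := xi_double E h hy
  have hxx : x' = x := by
    have h1 := N_eq (cA E) (cB E) (x + E.b₂ / 12)
    rw [ht] at h1
    have h2 : 4 * fpol (cA E) (cB E) (x + E.b₂ / 12) * (x' - x) = 0 := by
      linear_combination hx' + h1
    have h4 : (4 : K) ≠ 0 := by norm_num
    rcases mul_eq_zero.mp h2 with h3 | h3
    · exact absurd h3 (mul_ne_zero h4 hf)
    · exact sub_eq_zero.mp h3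
  refine ⟨Affine.Point.some x y h, Affine.Point.some_ne_zero h, ?_⟩
  rcases (Affine.Point.X_eq_iff (h₁ := h') (h₂ := h)).mp hxx with h1 | h1
  · rw [h1] at hadd
    exact absurd (add_eq_left.mp hadd) (Affine.Point.some_ne_zero h)
  · rw [h1] at hadd
    rw [show (3 : ℕ) • Affine.Point.some x y h
      = (Affine.Point.some x y h + Affine.Point.some x y h) + Affine.Point.some x y h by abel,
      hadd, neg_add_cancel]

/-- (L5b) -/
theorem exists_five_torsion [IsAlgClosed K] (E : WeierstrassCurve K) (hΔ : E.Δ ≠ 0) :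
    ∃ P : E.toAffine.Point, P ≠ 0 ∧ (5 : ℕ) • P = 0 := by
  obtain ⟨u, hu⟩ : ∃ u : K, psi5 (cA E) (cB E) u = 0 := by
    obtain ⟨t, ht⟩ := IsAlgClosed.exists_root (psi5P (cA E) (cB E)) (by
      rw [Polynomial.degree_eq_natDegree (psi5P_ne_zero _ _), natDegree_psi5P]; norm_num)
    exact ⟨t, by rw [← eval_psi5P]; exact ht⟩
  obtain ⟨x, y, h, rfl⟩ := exists_point E hΔ u
  have h4 : (4 : K) ≠ 0 := by norm_num
  have hf : fpol (cA E) (cB E) (x + E.b₂ / 12) ≠ 0 := by
    intro hf
    have h3 : psi3 (cA E) (cB E) (x + E.b₂ / 12) = 0 := by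
      have h5 : psi3 (cA E) (cB E) (x + E.b₂ / 12) ^ 3 = 0 := by
        have h6 := hu
        unfold psi5 at h6
        rw [hf] at h6
        linear_combination -h6
      exact pow_eq_zero_iff (by norm_num) |>.mp h5
    exact f_ne_zero_of_psi3 E hΔ _ h3 hf
  have h3 : psi3 (cA E) (cB E) (x + E.b₂ / 12) ≠ 0 := by
    intro h3
    have hH : Hpol (cA E) (cB E) (x + E.b₂ / 12) = 0 := by
      have h6 := hu
      unfold psi5 at h6
      rw [h3] at h6
      have h32 : (32 : K) * fpol (cA E) (cB E) (x + E.b₂ / 12) ^ 2 ≠ 0 :=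
        mul_ne_zero (by norm_num) (pow_ne_zero _ hf)
      have h7 : 32 * fpol (cA E) (cB E) (x + E.b₂ / 12) ^ 2
          * Hpol (cA E) (cB E) (x + E.b₂ / 12) = 0 := by
        linear_combination h6
      exact (mul_eq_zero.mp h7).resolve_left h32
    have h8 := H_eq (cA E) (cB E) (x + E.b₂ / 12)
    rw [hH, h3] at h8
    have h9 : fpol (cA E) (cB E) (x + E.b₂ / 12) ^ 2 = 0 := by
      linear_combination (1 / 8 : K) * h8
    exact hf (pow_eq_zero_iff (by norm_num) |>.mp h9)
  have hH : Hpol (cA E) (cB E) (x + E.b₂ / 12) ≠ 0 := by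
    intro hH
    have h6 := hu
    unfold psi5 at h6
    rw [hH] at h6
    have h7 : psi3 (cA E) (cB E) (x + E.b₂ / 12) ^ 3 = 0 := by linear_combination -h6
    exact h3 (pow_eq_zero_iff (by norm_num) |>.mp h7)
  have hy := Y_ne_of_f_ne E h.1 hf
  obtain ⟨x', y', h', hadd, -, hx'⟩ := xi_double E h hy
  have hfv : fpol (cA E) (cB E) (x' + E.b₂ / 12) ≠ 0 := by
    intro hfv
    have h6 := f_dbl (cA E) (cB E) (x + E.b₂ / 12) (x' + E.b₂ / 12) hx'
    rw [hfv, zero_mul] at h6
    exact hH (pow_eq_zero_iff (by norm_num) |>.mp h6.symm)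
  have hy' := Y_ne_of_f_ne E h'.1 hfv
  obtain ⟨x'', y'', h'', hadd', -, hx''⟩ := xi_double E h' hy'
  have hxx : x'' = x := by
    have hq := quad_dbl (cA E) (cB E) (x + E.b₂ / 12) (x' + E.b₂ / 12) hx'
    rw [hu, mul_zero, neg_zero] at hq
    have hM : (4 * fpol (cA E) (cB E) (x + E.b₂ / 12)) ^ 4 ≠ 0 :=
      pow_ne_zero _ (mul_ne_zero h4 hf)
    have hq' := (mul_eq_zero.mp hq).resolve_right hM
    have h2 : 4 * fpol (cA E) (cB E) (x' + E.b₂ / 12) * (x'' - x) = 0 := by
      linear_combination hx'' + hq'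
    rcases mul_eq_zero.mp h2 with h5 | h5
    · exact absurd h5 (mul_ne_zero h4 hfv)
    · exact sub_eq_zero.mp h5
  refine ⟨Affine.Point.some x y h, Affine.Point.some_ne_zero h, ?_⟩
  rcases (Affine.Point.X_eq_iff (h₁ := h'') (h₂ := h)).mp hxx with h1 | h1
  · exfalso
    apply h3
    have h3P : (3 : ℕ) • Affine.Point.some x y h = 0 := by
      rw [h1, ← hadd] at hadd'
      have h6 : (3 : ℕ) • Affine.Point.some x y h + Affine.Point.some x y h
          = Affine.Point.some x y h :=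
        (show (3 : ℕ) • Affine.Point.some x y h + Affine.Point.some x y h
          = (Affine.Point.some x y h + Affine.Point.some x y h)
            + (Affine.Point.some x y h + Affine.Point.some x y h) by abel).trans hadd'
      exact add_eq_right.mp h6
    have h7 := psi3_xi_of_three_nsmul E _ (Affine.Point.some_ne_zero h) h3P
    simpa [xi] using h7
  · rw [h1, ← hadd] at hadd'
    rw [show (5 : ℕ) • Affine.Point.some x y h
      = ((Affine.Point.some x y h + Affine.Point.some x y h)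
        + (Affine.Point.some x y h + Affine.Point.some x y h)) + Affine.Point.some x y h by abel,
      hadd', neg_add_cancel]

end Main

end Fermat.Agent.S51
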