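import Mathlib

set_option autoImplicit false

namespace Fermat.Agent.S51.X15

/-- Coprime natural factors of a square are squares. -/
theorem sq_of_coprime_mul {a b c : ℕ} (h : Nat.Coprime a b) (hab : a * b = c ^ 2) :
    ∃ d, a = d ^ 2 :=
  exists_eq_pow_of_mul_eq_pow (Nat.isUnit_iff.mpr h) hab

theorem base_check_fin : ∀ A A' B B' : Fin 10,
    (A:ℕ) ^ 2 + (A':ℕ) ^ 2 = (B:ℕ) ^ 2 + (B':ℕ) ^ 2 → 5 * (A:ℕ) * A' = 3 * (B:ℕ) * B' →
      0 < (A:ℕ) → 0 < (A':ℕ) → (B':ℕ) < B → False := by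
  decide

theorem base_check (A A' B B' : ℕ) (hA : A < 10) (hA' : A' < 10) (hB : B < 10) (hB' : B' < 10)
    (h1 : A ^ 2 + A' ^ 2 = B ^ 2 + B' ^ 2) (h2 : 5 * A * A' = 3 * B * B') (h3 : 0 < A)
    (h4 : 0 < A') (h5 : B' < B) : False :=
  base_check_fin ⟨A, hA⟩ ⟨A', hA'⟩ ⟨B, hB⟩ ⟨B', hB'⟩ h1 h2 h3 h4 h5

theorem mod3_fact : ∀ x y : ZMod 3, x ^ 2 + 25 * y ^ 2 = 0 → y = 0 := by decide

theorem mod8_fact_s : ∀ m e s : ZMod 8, m ^ 2 = s ^ 2 + 9 * e ^ 2 → e.val % 2 = 1 →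
    s.val % 4 = 0 ∧ m.val % 2 = 1 := by decide

theorem mod8_fact_t : ∀ m e t : ZMod 8, m ^ 2 = t ^ 2 + 25 * e ^ 2 → e.val % 2 = 1 →
    t.val % 4 = 0 := by decide

/-- The induction hypothesis shape. -/
def NoSol (M : ℕ) : Prop :=
  ∀ e s t : ℕ, 0 < e → 0 < t → M ^ 2 = s ^ 2 + 9 * e ^ 2 → M ^ 2 = t ^ 2 + 25 * e ^ 2 → False

/-- `g ∣ M`, `g ∣ e`, `M^2 = s^2 + c e^2` imply `g ∣ s`. -/
theorem dvd_of_sq_eq {g M e s c : ℕ} (hM : g ∣ M) (he : g ∣ e) (h : M ^ 2 = s ^ 2 + c * e ^ 2) :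
    g ∣ s := by
  have h1 : g ^ 2 ∣ M ^ 2 := pow_dvd_pow_of_dvd hM 2
  have h2 : g ^ 2 ∣ c * e ^ 2 := Dvd.dvd.mul_left (pow_dvd_pow_of_dvd he 2) c
  rw [h] at h1
  exact (Nat.pow_dvd_pow_iff two_ne_zero).mp ((Nat.dvd_add_left h2).mp h1)

/-- The halving step, in a form independent of the parity case. -/
theorem key_step {M : ℕ} (ih : ∀ m < M, NoSol m) (A B G k : ℕ) (hB : 0 < B) (hG : 0 < G)
    (hk : 0 < k) (hlt : 5 * A < M)
    (h1 : G ^ 2 * (25 * A ^ 2) = G ^ 2 * (9 * B ^ 2) + (4 * A * B) ^ 2)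
    (h2 : G ^ 2 * (25 * A ^ 2) = G ^ 2 * (25 * B ^ 2) + k ^ 2) : False := by
  have hd1 : G ∣ 4 * A * B := by
    have : G ^ 2 ∣ (4 * A * B) ^ 2 := by
      have ha : G ^ 2 ∣ G ^ 2 * (25 * A ^ 2) := Dvd.intro _ rfl
      have hb : G ^ 2 ∣ G ^ 2 * (9 * B ^ 2) := Dvd.intro _ rfl
      rw [h1] at ha
      exact (Nat.dvd_add_right hb).mp ha
    exact (Nat.pow_dvd_pow_iff two_ne_zero).mp this
  have hd2 : G ∣ k := by
    have : G ^ 2 ∣ k ^ 2 := by
      have ha : G ^ 2 ∣ G ^ 2 * (25 * A ^ 2) := Dvd.intro _ rfl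
      have hb : G ^ 2 ∣ G ^ 2 * (25 * B ^ 2) := Dvd.intro _ rfl
      rw [h2] at ha
      exact (Nat.dvd_add_right hb).mp ha
    exact (Nat.pow_dvd_pow_iff two_ne_zero).mp this
  obtain ⟨s1, hs1⟩ := hd1
  obtain ⟨t1, ht1⟩ := hd2
  have hG2 : 0 < G ^ 2 := by positivity
  have ht1pos : 0 < t1 := by
    rcases Nat.eq_zero_or_pos t1 with h | h
    · subst h; simp at ht1; omega
    · exact h
  refine ih (5 * A) hlt B s1 t1 hB ht1pos ?_ ?_
  · have : G ^ 2 * ((5 * A) ^ 2) = G ^ 2 * (s1 ^ 2 + 9 * B ^ 2) := by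
      rw [hs1] at h1; nlinarith [h1]
    exact Nat.eq_of_mul_eq_mul_left hG2 this
  · have : G ^ 2 * ((5 * A) ^ 2) = G ^ 2 * (t1 ^ 2 + 25 * B ^ 2) := by
      rw [ht1] at h2; nlinarith [h2]
    exact Nat.eq_of_mul_eq_mul_left hG2 this

theorem coprime_M_s {M e s t : ℕ} (hc : Nat.Coprime M e) (hs : M ^ 2 = s ^ 2 + 9 * e ^ 2)
    (ht2 : M ^ 2 = t ^ 2 + 25 * e ^ 2) : Nat.Coprime M s := by
  apply Nat.coprime_of_dvd
  intro p hp hpM hps
  have h9 : p ∣ 9 * e ^ 2 := by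
    have h1 : p ∣ M ^ 2 := dvd_pow hpM two_ne_zero
    rw [hs] at h1
    exact (Nat.dvd_add_right (dvd_pow hps two_ne_zero)).mp h1
  have hpe : ¬ p ∣ e := by
    intro hpe
    have := Nat.dvd_gcd hpM hpe
    rw [hc] at this
    exact hp.one_lt.ne' (Nat.dvd_one.mp this)
  rcases hp.dvd_mul.mp h9 with h | h
  · have hp3 : p = 3 := by
      have : p ∣ 3 := hp.dvd_of_dvd_pow (show p ∣ 3 ^ 2 by norm_num; exact h)
      exact (Nat.prime_dvd_prime_iff_eq hp Nat.prime_three).mp this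
    subst hp3
    have h := congrArg (Nat.cast : ℕ → ZMod 3) ht2
    push_cast at h
    have hM0 : (M : ZMod 3) = 0 := (ZMod.natCast_eq_zero_iff M 3).mpr hpM
    rw [hM0] at h
    have he0 := mod3_fact (t : ZMod 3) (e : ZMod 3) (by rw [← h]; ring)
    exact hpe ((ZMod.natCast_eq_zero_iff e 3).mp he0)
  · exact hpe (hp.dvd_of_dvd_pow h)

theorem coprime_M_t {M e t : ℕ} (hc : Nat.Coprime M e) (ht2 : M ^ 2 = t ^ 2 + 25 * e ^ 2)
    (h5 : ¬ 5 ∣ t) : Nat.Coprime M t := by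
  apply Nat.coprime_of_dvd
  intro p hp hpM hpt
  have h25 : p ∣ 25 * e ^ 2 := by
    have h1 : p ∣ M ^ 2 := dvd_pow hpM two_ne_zero
    rw [ht2] at h1
    exact (Nat.dvd_add_right (dvd_pow hpt two_ne_zero)).mp h1
  have hpe : ¬ p ∣ e := by
    intro hpe
    have := Nat.dvd_gcd hpM hpe
    rw [hc] at this
    exact hp.one_lt.ne' (Nat.dvd_one.mp this)
  rcases hp.dvd_mul.mp h25 with h | h
  · have hp5 : p = 5 := by
      have : p ∣ 5 := hp.dvd_of_dvd_pow (show p ∣ 5 ^ 2 by norm_num; exact h)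
      exact (Nat.prime_dvd_prime_iff_eq hp Nat.prime_five).mp this
    subst hp5
    exact h5 hpt
  · exact hpe (hp.dvd_of_dvd_pow h)

/-- an odd common divisor of `s` and `t` is `1`. -/
theorem odd_common_dvd {M e s t d : ℕ} (hc : Nat.Coprime M e) (hs : M ^ 2 = s ^ 2 + 9 * e ^ 2)
    (hst : s ^ 2 = t ^ 2 + 16 * e ^ 2) (hds : d ∣ s) (hdt : d ∣ t) (hodd : Nat.Coprime d 2) :
    d = 1 := by
  by_contra hd1
  obtain ⟨p, hp, hpd⟩ := Nat.exists_prime_and_dvd hd1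
  have hps := hpd.trans hds
  have hpt := hpd.trans hdt
  have h16 : p ∣ 16 * e ^ 2 := by
    have h1 : p ∣ s ^ 2 := dvd_pow hps two_ne_zero
    rw [hst] at h1
    exact (Nat.dvd_add_right (dvd_pow hpt two_ne_zero)).mp h1
  have hpe : p ∣ e := by
    rcases hp.dvd_mul.mp h16 with h | h
    · exfalso
      have : p ∣ 2 := hp.dvd_of_dvd_pow (show p ∣ 2 ^ 4 by norm_num; exact h)
      have h2 : p ∣ Nat.gcd d 2 := Nat.dvd_gcd hpd this
      rw [hodd] at h2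
      exact hp.one_lt.ne' (Nat.dvd_one.mp h2)
    · exact hp.dvd_of_dvd_pow h
  have hpM : p ∣ M := by
    have : p ∣ M ^ 2 := by
      rw [hs]
      exact dvd_add (dvd_pow hps two_ne_zero) (Dvd.dvd.mul_left (dvd_pow hpe two_ne_zero) 9)
    exact hp.dvd_of_dvd_pow this
  have := Nat.dvd_gcd hpM hpe
  rw [hc] at this
  exact hp.one_lt.ne' (Nat.dvd_one.mp this)

theorem coprime_add_of_odd {M s d1 : ℕ} (hd1 : M = s + d1) (hodd : ¬ 2 ∣ (M + s))
    (hc : Nat.Coprime M s) : Nat.Coprime (M + s) d1 := by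
  have hg1 : Nat.gcd (M + s) d1 ∣ M + s := Nat.gcd_dvd_left _ _
  have hg2 : Nat.gcd (M + s) d1 ∣ d1 := Nat.gcd_dvd_right _ _
  have h2M : Nat.gcd (M + s) d1 ∣ 2 * M := by
    have : 2 * M = (M + s) + d1 := by omega
    rw [this]; exact dvd_add hg1 hg2
  have h2s : Nat.gcd (M + s) d1 ∣ 2 * s := by
    have h' : Nat.gcd (M + s) d1 ∣ d1 + 2 * s := by
      have : d1 + 2 * s = M + s := by omega
      rw [this]; exact hg1
    exact (Nat.dvd_add_right hg2).mp h'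
  have hcop2 : Nat.Coprime (Nat.gcd (M + s) d1) 2 := by
    apply Nat.Coprime.symm
    rw [Nat.prime_two.coprime_iff_not_dvd]
    intro h
    exact hodd (h.trans hg1)
  have hM : Nat.gcd (M + s) d1 ∣ M := hcop2.dvd_of_dvd_mul_left h2M
  have hs : Nat.gcd (M + s) d1 ∣ s := hcop2.dvd_of_dvd_mul_left h2s
  have := Nat.dvd_gcd hM hs
  rw [hc] at this
  exact Nat.dvd_one.mp this

theorem coprime_add_half {M s d' : ℕ} (hd : M = s + 2 * d') (hc : Nat.Coprime M s) :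
    Nat.Coprime (s + d') d' := by
  have hg1 : Nat.gcd (s + d') d' ∣ s + d' := Nat.gcd_dvd_left _ _
  have hg2 : Nat.gcd (s + d') d' ∣ d' := Nat.gcd_dvd_right _ _
  have hs : Nat.gcd (s + d') d' ∣ s := (Nat.dvd_add_left hg2).mp hg1
  have hM : Nat.gcd (s + d') d' ∣ M := by
    rw [hd]; exact dvd_add hs (Dvd.dvd.mul_left hg2 2)
  have := Nat.dvd_gcd hM hs
  rw [hc] at this
  exact Nat.dvd_one.mp this

theorem lt_of_sq_eq_add {a b c : ℕ} (h : a ^ 2 = b ^ 2 + c) (hc : 0 < c) : b < a := by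
  by_contra hn
  have h1 : a ≤ b := by omega
  have h2 := Nat.pow_le_pow_left h1 2
  omega

theorem mul_sub_eq {M s d c : ℕ} (hd : M = s + d) (h : M ^ 2 = s ^ 2 + c) : (M + s) * d = c := by
  subst hd
  nlinarith [h]

theorem lt_ten_of_sq_lt {A n : ℕ} (h : n = A ^ 2) (hn : n < 100) : A < 10 := by
  by_contra hA
  have h1 : 10 ≤ A := by omega
  have h2 := Nat.pow_le_pow_left h1 2
  omega

theorem pos_of_sq_eq {A n : ℕ} (h : n = A ^ 2) (hn : 0 < n) : 0 < A := by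
  rcases Nat.eq_zero_or_pos A with h0 | h0
  · subst h0; simp at h; omega
  · exact h0

set_option maxHeartbeats 4000000 in
theorem step_odd {M : ℕ} (ih : ∀ m < M, NoSol m) (e s t : ℕ) (he : 0 < e) (ht : 0 < t)
    (hs : M ^ 2 = s ^ 2 + 9 * e ^ 2) (ht2 : M ^ 2 = t ^ 2 + 25 * e ^ 2)
    (hc : Nat.Coprime M e) (h5 : ¬ 5 ∣ t) (hodd : e % 2 = 1) : False := by
  have hMs : Nat.Coprime M s := coprime_M_s hc hs ht2
  have hMt : Nat.Coprime M t := coprime_M_t hc ht2 h5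
  have hst : s ^ 2 = t ^ 2 + 16 * e ^ 2 := by omega
  have he2 : 0 < e ^ 2 := by positivity
  have hsM : s < M := lt_of_sq_eq_add hs (by omega)
  have htM : t < M := lt_of_sq_eq_add ht2 (by omega)
  have hts : t < s := lt_of_sq_eq_add hst (by omega)
  have hMpos : 0 < M := by omega
  -- mod 8 information
  have h8s := mod8_fact_s (M : ZMod 8) (e : ZMod 8) (s : ZMod 8)
    (by exact_mod_cast congrArg (Nat.cast : ℕ → ZMod 8) hs) (by rw [ZMod.val_natCast]; omega)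
  have h8t := mod8_fact_t (M : ZMod 8) (e : ZMod 8) (t : ZMod 8)
    (by exact_mod_cast congrArg (Nat.cast : ℕ → ZMod 8) ht2) (by rw [ZMod.val_natCast]; omega)
  rw [ZMod.val_natCast, ZMod.val_natCast] at h8s
  rw [ZMod.val_natCast] at h8t
  have hs4 : s % 4 = 0 := by omega
  have hM2 : M % 2 = 1 := by omega
  have ht4 : t % 4 = 0 := by omega
  obtain ⟨d1, hd1⟩ : ∃ d1, M = s + d1 := Nat.exists_eq_add_of_le hsM.le
  obtain ⟨d2, hd2⟩ : ∃ d2, M = t + d2 := Nat.exists_eq_add_of_le htM.le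
  have hodd1 : ¬ 2 ∣ (M + s) := by omega
  have hodd2 : ¬ 2 ∣ (M + t) := by omega
  have hp1 : (M + s) * d1 = (3 * e) ^ 2 := by
    rw [mul_sub_eq hd1 hs]; ring
  have hp2 : (M + t) * d2 = (5 * e) ^ 2 := by
    rw [mul_sub_eq hd2 ht2]; ring
  have hcop1 := coprime_add_of_odd hd1 hodd1 hMs
  have hcop2 := coprime_add_of_odd hd2 hodd2 hMt
  obtain ⟨A, hA⟩ := sq_of_coprime_mul hcop1 hp1
  obtain ⟨A', hA'⟩ := sq_of_coprime_mul hcop1.symm (by rw [mul_comm]; exact hp1)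
  obtain ⟨B, hB⟩ := sq_of_coprime_mul hcop2 hp2
  obtain ⟨B', hB'⟩ := sq_of_coprime_mul hcop2.symm (by rw [mul_comm]; exact hp2)
  obtain ⟨s0, hs0⟩ : 4 ∣ s := Nat.dvd_of_mod_eq_zero hs4
  obtain ⟨t0, ht0⟩ : 4 ∣ t := Nat.dvd_of_mod_eq_zero ht4
  have hst0 : s0 ^ 2 = t0 ^ 2 + e ^ 2 := by
    have h := hst
    rw [hs0, ht0, mul_pow, mul_pow] at h
    omega
  have hts0 : t0 < s0 := by omega
  obtain ⟨d3, hd3⟩ : ∃ d3, s0 = t0 + d3 := Nat.exists_eq_add_of_le hts0.le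
  have hp3 : (s0 + t0) * d3 = e ^ 2 := mul_sub_eq hd3 hst0
  have hodd3 : ¬ 2 ∣ (s0 + t0) := by
    intro h
    have h2 : 2 ∣ e ^ 2 := hp3 ▸ Dvd.dvd.mul_right h d3
    have := Nat.prime_two.dvd_of_dvd_pow h2
    omega
  have hcop0 : Nat.Coprime s0 t0 := by
    have hg1 : Nat.gcd s0 t0 ∣ s0 := Nat.gcd_dvd_left _ _
    have hg2 : Nat.gcd s0 t0 ∣ t0 := Nat.gcd_dvd_right _ _
    have hgodd : Nat.Coprime (Nat.gcd s0 t0) 2 := by
      apply Nat.Coprime.symm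
      rw [Nat.prime_two.coprime_iff_not_dvd]
      intro h
      exact hodd3 (h.trans (dvd_add hg1 hg2))
    exact odd_common_dvd hc hs hst (hs0 ▸ Dvd.dvd.mul_left hg1 4) (ht0 ▸ Dvd.dvd.mul_left hg2 4)
      hgodd
  obtain ⟨G0, hG0⟩ := sq_of_coprime_mul (coprime_add_of_odd hd3 hodd3 hcop0) hp3
  have hApos : 0 < A := pos_of_sq_eq hA (by omega)
  have hA'pos : 0 < A' := pos_of_sq_eq hA' (by omega)
  have hBpos : 0 < B := pos_of_sq_eq hB (by omega)
  have hG0pos : 0 < G0 := pos_of_sq_eq hG0 (by omega)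
  by_cases hM50 : M < 50
  · -- small case
    have hA10 : A < 10 := lt_ten_of_sq_lt hA (by omega)
    have hB10 : B < 10 := lt_ten_of_sq_lt hB (by omega)
    have hA'10 : A' < 10 := lt_ten_of_sq_lt hA' (by omega)
    have hB'10 : B' < 10 := lt_ten_of_sq_lt hB' (by omega)
    have e1 : A ^ 2 + A' ^ 2 = B ^ 2 + B' ^ 2 := by
      rw [← hA, ← hA', ← hB, ← hB']; omega
    have e2 : A * A' = 3 * e := by
      have : (A * A') ^ 2 = (3 * e) ^ 2 := by rw [mul_pow, ← hA, ← hA', hp1]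
      exact Nat.pow_left_injective two_ne_zero this
    have e3 : B * B' = 5 * e := by
      have : (B * B') ^ 2 = (5 * e) ^ 2 := by rw [mul_pow, ← hB, ← hB', hp2]
      exact Nat.pow_left_injective two_ne_zero this
    have e4 : 5 * A * A' = 3 * B * B' := by
      rw [mul_assoc, e2, mul_assoc, e3]; ring
    have e5 : B' < B := by
      have : B' ^ 2 < B ^ 2 := by rw [← hB, ← hB']; omega
      exact lt_of_pow_lt_pow_left₀ 2 (Nat.zero_le _) this
    exact base_check A A' B B' hA10 hA'10 hB10 hB'10 e1 e4 hApos hA'pos e5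
  · -- descent
    have hM50' : 50 ≤ M := by omega
    have hlt : 5 * A < M := by
      by_contra h
      have h' : M ≤ 5 * A := by omega
      have h1 : M ^ 2 ≤ (5 * A) ^ 2 := Nat.pow_le_pow_left h' 2
      have h2 : (5 * A) ^ 2 = 25 * (M + s) := by rw [mul_pow, ← hA]; norm_num
      have h3 : 50 * M ≤ M ^ 2 := by rw [sq]; exact Nat.mul_le_mul_right M hM50'
      omega
    have hG : (2 * G0) ^ 2 = s + t := by
      rw [mul_pow, ← hG0, hs0, ht0]; ring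
    have hsZ : (M : ℤ) ^ 2 = (s : ℤ) ^ 2 + 9 * (e : ℤ) ^ 2 := by exact_mod_cast hs
    have htZ : (M : ℤ) ^ 2 = (t : ℤ) ^ 2 + 25 * (e : ℤ) ^ 2 := by exact_mod_cast ht2
    have eA : (A : ℤ) ^ 2 = M + s := by exact_mod_cast hA.symm
    have eB : (B : ℤ) ^ 2 = M + t := by exact_mod_cast hB.symm
    have eG : (2 * (G0 : ℤ)) ^ 2 = s + t := by exact_mod_cast hG
    refine key_step ih A B (2 * G0) (20 * e) hBpos (by omega) (by omega) hlt ?_ ?_
    · zify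
      linear_combination (25 * (A : ℤ) ^ 2 - 9 * (B : ℤ) ^ 2) * eG
        + (25 * ((s : ℤ) + t) - 16 * (B : ℤ) ^ 2) * eA
        + (-9 * ((s : ℤ) + t) - 16 * ((M : ℤ) + s)) * eB - 25 * hsZ + 9 * htZ
    · zify
      linear_combination (25 * (A : ℤ) ^ 2 - 25 * (B : ℤ) ^ 2) * eG
        + (25 * ((s : ℤ) + t)) * eA - (25 * ((s : ℤ) + t)) * eB + 25 * htZ - 25 * hsZ

theorem mul_half_eq {M s d c : ℕ} (hd : M = s + 2 * d) (h : M ^ 2 = s ^ 2 + 4 * c) :
    (s + d) * d = c := by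
  subst hd
  nlinarith [h]

theorem mod4_fact_par : ∀ m e s : ZMod 4, m ^ 2 = s ^ 2 + 9 * e ^ 2 → e.val % 2 = 0 →
    m.val % 2 = 1 → s.val % 2 = 1 := by decide

theorem mod4_fact_par' : ∀ m e s : ZMod 4, m ^ 2 = s ^ 2 + 25 * e ^ 2 → e.val % 2 = 0 →
    m.val % 2 = 1 → s.val % 2 = 1 := by decide

set_option maxHeartbeats 4000000 in
theorem step_even {M : ℕ} (ih : ∀ m < M, NoSol m) (e s t : ℕ) (he : 0 < e) (ht : 0 < t)
    (hs : M ^ 2 = s ^ 2 + 9 * e ^ 2) (ht2 : M ^ 2 = t ^ 2 + 25 * e ^ 2)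
    (hc : Nat.Coprime M e) (h5 : ¬ 5 ∣ t) (heven : e % 2 = 0) : False := by
  have hMs : Nat.Coprime M s := coprime_M_s hc hs ht2
  have hMt : Nat.Coprime M t := coprime_M_t hc ht2 h5
  have hst : s ^ 2 = t ^ 2 + 16 * e ^ 2 := by omega
  have he2 : 0 < e ^ 2 := by positivity
  have hsM : s < M := lt_of_sq_eq_add hs (by omega)
  have htM : t < M := lt_of_sq_eq_add ht2 (by omega)
  have hts : t < s := lt_of_sq_eq_add hst (by omega)
  have hMpos : 0 < M := by omega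
  have hM2 : M % 2 = 1 := by
    by_contra h
    have h2M : 2 ∣ M := by omega
    have h2e : 2 ∣ e := by omega
    have := Nat.dvd_gcd h2M h2e
    rw [hc] at this
    omega
  have h4s := mod4_fact_par (M : ZMod 4) (e : ZMod 4) (s : ZMod 4)
    (by exact_mod_cast congrArg (Nat.cast : ℕ → ZMod 4) hs) (by rw [ZMod.val_natCast]; omega)
    (by rw [ZMod.val_natCast]; omega)
  have h4t := mod4_fact_par' (M : ZMod 4) (e : ZMod 4) (t : ZMod 4)
    (by exact_mod_cast congrArg (Nat.cast : ℕ → ZMod 4) ht2) (by rw [ZMod.val_natCast]; omega)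
    (by rw [ZMod.val_natCast]; omega)
  rw [ZMod.val_natCast] at h4s h4t
  have hs2 : s % 2 = 1 := by omega
  have ht2' : t % 2 = 1 := by omega
  obtain ⟨e', he'⟩ : ∃ e', e = 2 * e' := ⟨e / 2, by omega⟩
  obtain ⟨d1, hd1⟩ : ∃ d1, M = s + 2 * d1 := ⟨(M - s) / 2, by omega⟩
  obtain ⟨d2, hd2⟩ : ∃ d2, M = t + 2 * d2 := ⟨(M - t) / 2, by omega⟩
  obtain ⟨d3, hd3⟩ : ∃ d3, s = t + 2 * d3 := ⟨(s - t) / 2, by omega⟩
  have hp1 : (s + d1) * d1 = (3 * e') ^ 2 := by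
    apply mul_half_eq hd1
    rw [hs, he']; ring
  have hp2 : (t + d2) * d2 = (5 * e') ^ 2 := by
    apply mul_half_eq hd2
    rw [ht2, he']; ring
  have hp3 : (t + d3) * d3 = (4 * e') ^ 2 := by
    apply mul_half_eq hd3
    rw [hst, he']; ring
  have hcop1 := coprime_add_half hd1 hMs
  have hcop2 := coprime_add_half hd2 hMt
  have hcopst : Nat.Coprime s t := by
    have hg1 : Nat.gcd s t ∣ s := Nat.gcd_dvd_left _ _
    have hg2 : Nat.gcd s t ∣ t := Nat.gcd_dvd_right _ _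
    have hgodd : Nat.Coprime (Nat.gcd s t) 2 := by
      apply Nat.Coprime.symm
      rw [Nat.prime_two.coprime_iff_not_dvd]
      intro h
      have := h.trans hg1
      omega
    exact odd_common_dvd hc hs hst hg1 hg2 hgodd
  have hcop3 := coprime_add_half hd3 hcopst
  obtain ⟨A, hA⟩ := sq_of_coprime_mul hcop1 hp1
  obtain ⟨A', hA'⟩ := sq_of_coprime_mul hcop1.symm (by rw [mul_comm]; exact hp1)
  obtain ⟨B, hB⟩ := sq_of_coprime_mul hcop2 hp2
  obtain ⟨B', hB'⟩ := sq_of_coprime_mul hcop2.symm (by rw [mul_comm]; exact hp2)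
  obtain ⟨G, hG⟩ := sq_of_coprime_mul hcop3 hp3
  have hd1pos : 0 < d1 := by omega
  have hd2pos : 0 < d2 := by omega
  have hApos : 0 < A := pos_of_sq_eq hA (by omega)
  have hA'pos : 0 < A' := pos_of_sq_eq hA' (by omega)
  have hBpos : 0 < B := pos_of_sq_eq hB (by omega)
  have hGpos : 0 < G := pos_of_sq_eq hG (by omega)
  by_cases hM25 : M < 25
  · -- small case
    have hA10 : A < 10 := lt_ten_of_sq_lt hA (by omega)
    have hB10 : B < 10 := lt_ten_of_sq_lt hB (by omega)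
    have hA'10 : A' < 10 := lt_ten_of_sq_lt hA' (by omega)
    have hB'10 : B' < 10 := lt_ten_of_sq_lt hB' (by omega)
    have e1 : A ^ 2 + A' ^ 2 = B ^ 2 + B' ^ 2 := by
      rw [← hA, ← hA', ← hB, ← hB']; omega
    have e2 : A * A' = 3 * e' := by
      have : (A * A') ^ 2 = (3 * e') ^ 2 := by rw [mul_pow, ← hA, ← hA', hp1]
      exact Nat.pow_left_injective two_ne_zero this
    have e3 : B * B' = 5 * e' := by
      have : (B * B') ^ 2 = (5 * e') ^ 2 := by rw [mul_pow, ← hB, ← hB', hp2]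
      exact Nat.pow_left_injective two_ne_zero this
    have e4 : 5 * A * A' = 3 * B * B' := by
      rw [mul_assoc, e2, mul_assoc, e3]; ring
    have e5 : B' < B := by
      have : B' ^ 2 < B ^ 2 := by rw [← hB, ← hB']; omega
      exact lt_of_pow_lt_pow_left₀ 2 (Nat.zero_le _) this
    exact base_check A A' B B' hA10 hA'10 hB10 hB'10 e1 e4 hApos hA'pos e5
  · -- descent
    have hM25' : 25 ≤ M := by omega
    have hlt : 5 * A < M := by
      by_contra h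
      have h' : M ≤ 5 * A := by omega
      have h1 : M ^ 2 ≤ (5 * A) ^ 2 := Nat.pow_le_pow_left h' 2
      have h2 : (5 * A) ^ 2 = 25 * (s + d1) := by rw [mul_pow, ← hA]; norm_num
      have h3 : 25 * M ≤ M ^ 2 := by rw [sq]; exact Nat.mul_le_mul_right M hM25'
      omega
    have hsQ : (M : ℚ) ^ 2 = (s : ℚ) ^ 2 + 9 * (e : ℚ) ^ 2 := by exact_mod_cast hs
    have htQ : (M : ℚ) ^ 2 = (t : ℚ) ^ 2 + 25 * (e : ℚ) ^ 2 := by exact_mod_cast ht2
    have eA : 2 * (A : ℚ) ^ 2 = M + s := by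
      have : 2 * A ^ 2 = M + s := by rw [← hA]; omega
      exact_mod_cast this
    have eB : 2 * (B : ℚ) ^ 2 = M + t := by
      have : 2 * B ^ 2 = M + t := by rw [← hB]; omega
      exact_mod_cast this
    have eG : 2 * (G : ℚ) ^ 2 = s + t := by
      have : 2 * G ^ 2 = s + t := by rw [← hG]; omega
      exact_mod_cast this
    refine key_step ih A B G (10 * e) hBpos hGpos (by omega) hlt ?_ ?_
    · have : (G : ℚ) ^ 2 * (25 * (A : ℚ) ^ 2) = (G : ℚ) ^ 2 * (9 * (B : ℚ) ^ 2)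
          + (4 * (A : ℚ) * B) ^ 2 := by
        linear_combination (1 / 4 : ℚ) * ((50 * (A : ℚ) ^ 2 - 18 * (B : ℚ) ^ 2) * eG
          + (25 * ((s : ℚ) + t) - 32 * (B : ℚ) ^ 2) * eA
          + (-9 * ((s : ℚ) + t) - 16 * ((M : ℚ) + s)) * eB - 25 * hsQ + 9 * htQ)
      exact_mod_cast this
    · have : (G : ℚ) ^ 2 * (25 * (A : ℚ) ^ 2) = (G : ℚ) ^ 2 * (25 * (B : ℚ) ^ 2)
          + (10 * (e : ℚ)) ^ 2 := by
        linear_combination (25 / 4 : ℚ) * ((2 * (A : ℚ) ^ 2 - 2 * (B : ℚ) ^ 2) * eG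
          + ((s : ℚ) + t) * (eA - eB) + htQ - hsQ)
      exact_mod_cast this

theorem step_five {M : ℕ} (ih : ∀ m < M, NoSol m) (e s t : ℕ) (he : 0 < e) (ht : 0 < t)
    (hs : M ^ 2 = s ^ 2 + 9 * e ^ 2) (ht2 : M ^ 2 = t ^ 2 + 25 * e ^ 2)
    (h5 : 5 ∣ t) : False := by
  obtain ⟨t1, rfl⟩ := h5
  have h5M : 5 ∣ M := by
    have : 5 ∣ M ^ 2 := by
      rw [ht2, mul_pow]
      exact ⟨5 * t1 ^ 2 + 5 * e ^ 2, by ring⟩
    exact Nat.prime_five.dvd_of_dvd_pow this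
  obtain ⟨M1, rfl⟩ := h5M
  have he2 : 0 < e ^ 2 := by positivity
  have hsM : s < 5 * M1 := lt_of_sq_eq_add hs (by omega)
  rw [mul_pow] at hs ht2
  rw [mul_pow] at ht2
  have h1 : M1 ^ 2 = t1 ^ 2 + e ^ 2 := by omega
  refine ih s hsM t1 (4 * M1) (4 * e) (by omega) (by omega) ?_ ?_
  · rw [mul_pow]; omega
  · rw [mul_pow]; omega

theorem step_gcd {M : ℕ} (ih : ∀ m < M, NoSol m) (e s t : ℕ) (he : 0 < e) (ht : 0 < t)
    (hs : M ^ 2 = s ^ 2 + 9 * e ^ 2) (ht2 : M ^ 2 = t ^ 2 + 25 * e ^ 2)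
    (hc : ¬ Nat.Coprime M e) : False := by
  have hg1 : Nat.gcd M e ∣ M := Nat.gcd_dvd_left _ _
  have hg2 : Nat.gcd M e ∣ e := Nat.gcd_dvd_right _ _
  have hg3 : Nat.gcd M e ∣ s := dvd_of_sq_eq hg1 hg2 hs
  have hg4 : Nat.gcd M e ∣ t := dvd_of_sq_eq hg1 hg2 ht2
  have hgpos : 0 < Nat.gcd M e := Nat.gcd_pos_of_pos_right _ he
  have hg2' : 2 ≤ Nat.gcd M e := by
    have : Nat.gcd M e ≠ 1 := hc
    omega
  generalize Nat.gcd M e = g at hg1 hg2 hg3 hg4 hgpos hg2'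
  obtain ⟨M1, rfl⟩ := hg1
  obtain ⟨e1, rfl⟩ := hg2
  obtain ⟨s1, rfl⟩ := hg3
  obtain ⟨t1, rfl⟩ := hg4
  have hg2pos : 0 < g ^ 2 := by positivity
  have he1 : 0 < e1 := Nat.pos_of_mul_pos_left he
  have ht1 : 0 < t1 := Nat.pos_of_mul_pos_left ht
  have hM1 : 0 < M1 := by
    rcases Nat.eq_zero_or_pos M1 with h | h
    · subst h
      have : 0 < (g * t1) ^ 2 := by positivity
      simp at ht2
      omega
    · exact h
  have hlt : M1 < g * M1 := by nlinarith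
  refine ih M1 hlt e1 s1 t1 he1 ht1 ?_ ?_
  · apply Nat.eq_of_mul_eq_mul_left hg2pos
    rw [mul_pow, mul_pow, mul_pow] at hs
    rw [hs]; ring
  · apply Nat.eq_of_mul_eq_mul_left hg2pos
    rw [mul_pow, mul_pow, mul_pow] at ht2
    rw [ht2]; ring

theorem descent : ∀ M : ℕ, NoSol M := by
  intro M
  induction M using Nat.strong_induction_on with
  | _ M ih =>
    intro e s t he ht hs ht2
    by_cases hc : Nat.Coprime M e
    · by_cases h5 : 5 ∣ t
      · exact step_five ih e s t he ht hs ht2 h5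
      · rcases Nat.mod_two_eq_zero_or_one e with h | h
        · exact step_even ih e s t he ht hs ht2 hc h5 h
        · exact step_odd ih e s t he ht hs ht2 hc h5 h
    · exact step_gcd ih e s t he ht hs ht2 hc

theorem exists_nat_sq (q : ℚ) : ∃ a d : ℕ, 0 < d ∧ q ^ 2 * (d : ℚ) ^ 2 = (a : ℚ) ^ 2 := by
  refine ⟨q.num.natAbs, q.den, q.pos, ?_⟩
  have h1 : q * (q.den : ℚ) = (q.num : ℚ) := Rat.mul_den_eq_num q
  have h2 : ((q.num.natAbs : ℕ) : ℚ) ^ 2 = (q.num : ℚ) ^ 2 := by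
    rw [Nat.cast_natAbs, Int.cast_abs, sq_abs]
  rw [h2, ← h1]; ring

/-- E1: the class `(1,1,1)` has only the trivial points. -/
theorem E1 (x y z : ℚ) (h1 : x ^ 2 - 9 = y ^ 2) (h2 : x ^ 2 - 25 = z ^ 2) : z = 0 := by
  by_contra hz
  obtain ⟨a, d1, hd1, ha⟩ := exists_nat_sq x
  obtain ⟨b, d2, hd2, hb⟩ := exists_nat_sq y
  obtain ⟨c, d3, hd3, hc⟩ := exists_nat_sq z
  have hcpos : 0 < c := by
    rcases Nat.eq_zero_or_pos c with h | h
    · exfalso
      subst h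
      have hd3' : (d3 : ℚ) ≠ 0 := by exact_mod_cast hd3.ne'
      have : z ^ 2 * (d3 : ℚ) ^ 2 = 0 := by rw [hc]; simp
      have : z ^ 2 = 0 := by
        rcases mul_eq_zero.mp this with h | h
        · exact h
        · exact absurd (pow_eq_zero_iff two_ne_zero |>.mp h) hd3'
      exact hz (pow_eq_zero_iff two_ne_zero |>.mp this)
    · exact h
  refine descent (a * d2 * d3) (d1 * d2 * d3) (b * d1 * d3) (c * d1 * d2) (by positivity)
    (by positivity) ?_ ?_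
  · have : ((a * d2 * d3 : ℕ) : ℚ) ^ 2 = ((b * d1 * d3 : ℕ) : ℚ) ^ 2
        + 9 * ((d1 * d2 * d3 : ℕ) : ℚ) ^ 2 := by
      push_cast
      linear_combination ((d1 : ℚ) ^ 2 * (d2 : ℚ) ^ 2 * (d3 : ℚ) ^ 2) * h1
        - ((d2 : ℚ) ^ 2 * (d3 : ℚ) ^ 2) * ha + ((d1 : ℚ) ^ 2 * (d3 : ℚ) ^ 2) * hb
    exact_mod_cast this
  · have : ((a * d2 * d3 : ℕ) : ℚ) ^ 2 = ((c * d1 * d2 : ℕ) : ℚ) ^ 2
        + 25 * ((d1 * d2 * d3 : ℕ) : ℚ) ^ 2 := by
      push_cast
      linear_combination ((d1 : ℚ) ^ 2 * (d2 : ℚ) ^ 2 * (d3 : ℚ) ^ 2) * h2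
        - ((d2 : ℚ) ^ 2 * (d3 : ℚ) ^ 2) * ha + ((d1 : ℚ) ^ 2 * (d2 : ℚ) ^ 2) * hc
    exact_mod_cast this

theorem res3 : ∀ x w m : ZMod 3, x * (x - 3 * w ^ 2) * (3 * x - 25 * w ^ 2) = m ^ 2 →
    x ≠ 0 → w ≠ 0 → False := by decide

theorem res2a : ∀ y w m : ZMod 8, (2 * y + 9 * w ^ 2) * y * (y - 8 * w ^ 2) = m ^ 2 →
    4 * y ≠ 0 → 4 * w ≠ 0 → False := by decide

theorem res2b : ∀ y w m : ZMod 8, (8 * y + 9 * w ^ 2) * y * (y - 2 * w ^ 2) = m ^ 2 →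
    4 * y ≠ 0 → 4 * w ≠ 0 → False := by decide

theorem not_dvd_of_coprime {p a b : ℤ} (hp : Prime p) (hc : IsCoprime a b) (ha : p ∣ a) :
    ¬ p ∣ b := fun hb => hp.not_isUnit (hc.isUnit_of_dvd' ha hb)

theorem coprime_of_not_dvd {p a : ℤ} (hp : Prime p) (ha : ¬ p ∣ a) : IsCoprime a p :=
  (hp.irreducible.coprime_iff_not_dvd.mpr ha).symm

theorem coprime_sub {x a : ℤ} (h : IsCoprime x a) : IsCoprime x (x - a) := by
  have h1 : IsCoprime x (-a) := h.neg_right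
  have h2 := h1.add_mul_left_right 1
  have e : -a + x * 1 = x - a := by ring
  rw [e] at h2
  exact h2

theorem four_ne_zero_of_odd {u : ℤ} (h : ¬ (2 : ℤ) ∣ u) : 4 * ((u : ℤ) : ZMod 8) ≠ 0 := by
  intro h0
  have h1 : (((4 * u : ℤ)) : ZMod 8) = 0 := by push_cast; exact h0
  have h2 : ((8 : ℕ) : ℤ) ∣ 4 * u := (ZMod.intCast_zmod_eq_zero_iff_dvd _ 8).mp h1
  apply h
  have h3 : (8 : ℤ) ∣ 4 * u := by exact_mod_cast h2
  omega

theorem step3 (n W m : ℤ) (hc : IsCoprime n W)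
    (hm : n * (n - 9 * W ^ 2) * (n - 25 * W ^ 2) = m ^ 2) :
    ∃ k x y : ℤ, (k = 1 ∨ k = 9) ∧ n = k * x ∧ n - 9 * W ^ 2 = k * y ∧ IsCoprime x y := by
  by_cases h3 : (3 : ℤ) ∣ n
  · obtain ⟨n', rfl⟩ := h3
    have hW3 : ¬ (3 : ℤ) ∣ W := not_dvd_of_coprime Int.prime_three hc (dvd_mul_right 3 n')
    by_cases h9 : (3 : ℤ) ∣ n'
    · obtain ⟨n1, rfl⟩ := h9
      refine ⟨9, n1, n1 - W ^ 2, Or.inr rfl, by ring, by ring, ?_⟩
      have h1 : IsCoprime n1 W := hc.of_mul_left_right.of_mul_left_right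
      exact coprime_sub h1.pow_right
    · exfalso
      have h3m : (3 : ℤ) ∣ m := by
        have : (3 : ℤ) ∣ m ^ 2 :=
          ⟨n' * (3 * n' - 9 * W ^ 2) * (3 * n' - 25 * W ^ 2), by rw [← hm]; ring⟩
        exact Int.prime_three.dvd_of_dvd_pow this
      obtain ⟨m', rfl⟩ := h3m
      have hm' : n' * (n' - 3 * W ^ 2) * (3 * n' - 25 * W ^ 2) = m' ^ 2 := by
        have : (9 : ℤ) * (n' * (n' - 3 * W ^ 2) * (3 * n' - 25 * W ^ 2)) = 9 * m' ^ 2 := by
          linear_combination hm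
        exact mul_left_cancel₀ (by norm_num) this
      have hz := congrArg (Int.cast : ℤ → ZMod 3) hm'
      push_cast at hz
      refine res3 (n' : ZMod 3) (W : ZMod 3) (m' : ZMod 3) hz ?_ ?_
      · intro h0
        exact h9 (by exact_mod_cast (ZMod.intCast_zmod_eq_zero_iff_dvd n' 3).mp h0)
      · intro h0
        exact hW3 (by exact_mod_cast (ZMod.intCast_zmod_eq_zero_iff_dvd W 3).mp h0)
  · refine ⟨1, n, n - 9 * W ^ 2, Or.inl rfl, by ring, by ring, ?_⟩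
    have h1 : IsCoprime n 3 := coprime_of_not_dvd Int.prime_three h3
    have h2 : IsCoprime n (3 ^ 2 * W ^ 2) := h1.pow_right.mul_right hc.pow_right
    have e : (3 : ℤ) ^ 2 * W ^ 2 = 9 * W ^ 2 := by norm_num
    rw [e] at h2
    exact coprime_sub h2

theorem step5 (n W : ℤ) (hc : IsCoprime n W) :
    ∃ k x z : ℤ, (k = 1 ∨ k = 5 ∨ k = 25) ∧ n = k * x ∧ n - 25 * W ^ 2 = k * z ∧
      IsCoprime x z := by
  have hp5 : Prime (5 : ℤ) := Int.prime_iff_natAbs_prime.mpr (by norm_num)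
  by_cases h5 : (5 : ℤ) ∣ n
  · obtain ⟨n', rfl⟩ := h5
    by_cases h25 : (5 : ℤ) ∣ n'
    · obtain ⟨n1, rfl⟩ := h25
      refine ⟨25, n1, n1 - W ^ 2, Or.inr (Or.inr rfl), by ring, by ring, ?_⟩
      have h1 : IsCoprime n1 W := hc.of_mul_left_right.of_mul_left_right
      exact coprime_sub h1.pow_right
    · refine ⟨5, n', n' - 5 * W ^ 2, Or.inr (Or.inl rfl), by ring, by ring, ?_⟩
      have h1 : IsCoprime n' 5 := coprime_of_not_dvd hp5 h25
      have h2 : IsCoprime n' W := hc.of_mul_left_right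
      exact coprime_sub (h1.mul_right h2.pow_right)
  · refine ⟨1, n, n - 25 * W ^ 2, Or.inl rfl, by ring, by ring, ?_⟩
    have h1 : IsCoprime n 5 := coprime_of_not_dvd hp5 h5
    have h2 : IsCoprime n (5 ^ 2 * W ^ 2) := h1.pow_right.mul_right hc.pow_right
    have e : (5 : ℤ) ^ 2 * W ^ 2 = 25 * W ^ 2 := by norm_num
    rw [e] at h2
    exact coprime_sub h2

theorem step2 (u W m : ℤ) (hc : IsCoprime u W)
    (hm : (u + 9 * W ^ 2) * u * (u - 16 * W ^ 2) = m ^ 2) :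
    ∃ k y z : ℤ, (k = 1 ∨ k = 4 ∨ k = 16) ∧ u = k * y ∧ u - 16 * W ^ 2 = k * z ∧
      IsCoprime y z := by
  by_cases h2 : (2 : ℤ) ∣ u
  · obtain ⟨u1, rfl⟩ := h2
    have hW2 : ¬ (2 : ℤ) ∣ W := not_dvd_of_coprime Int.prime_two hc (dvd_mul_right 2 u1)
    by_cases h4 : (2 : ℤ) ∣ u1
    · obtain ⟨u2, rfl⟩ := h4
      by_cases h8 : (2 : ℤ) ∣ u2
      · obtain ⟨u3, rfl⟩ := h8
        by_cases h16 : (2 : ℤ) ∣ u3
        · obtain ⟨u4, rfl⟩ := h16
          refine ⟨16, u4, u4 - W ^ 2, Or.inr (Or.inr rfl), by ring, by ring, ?_⟩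
          have h1 : IsCoprime u4 W :=
            hc.of_mul_left_right.of_mul_left_right.of_mul_left_right.of_mul_left_right
          exact coprime_sub h1.pow_right
        · exfalso
          have h8m : (8 : ℤ) ∣ m := by
            have : (8 : ℤ) ^ 2 ∣ m ^ 2 :=
              ⟨(8 * u3 + 9 * W ^ 2) * u3 * (u3 - 2 * W ^ 2), by rw [← hm]; ring⟩
            exact (Int.pow_dvd_pow_iff two_ne_zero).mp this
          obtain ⟨m', rfl⟩ := h8m
          have hm' : (8 * u3 + 9 * W ^ 2) * u3 * (u3 - 2 * W ^ 2) = m' ^ 2 := by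
            have : (64 : ℤ) * ((8 * u3 + 9 * W ^ 2) * u3 * (u3 - 2 * W ^ 2)) = 64 * m' ^ 2 := by
              linear_combination hm
            exact mul_left_cancel₀ (by norm_num) this
          have hz := congrArg (Int.cast : ℤ → ZMod 8) hm'
          push_cast at hz
          exact res2b (u3 : ZMod 8) (W : ZMod 8) (m' : ZMod 8) hz (four_ne_zero_of_odd h16)
            (four_ne_zero_of_odd hW2)
      · refine ⟨4, u2, u2 - 4 * W ^ 2, Or.inr (Or.inl rfl), by ring, by ring, ?_⟩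
        have h1 : IsCoprime u2 2 := coprime_of_not_dvd Int.prime_two h8
        have h2 : IsCoprime u2 W := hc.of_mul_left_right.of_mul_left_right
        have h3 : IsCoprime u2 (2 ^ 2 * W ^ 2) := h1.pow_right.mul_right h2.pow_right
        have e : (2 : ℤ) ^ 2 * W ^ 2 = 4 * W ^ 2 := by norm_num
        rw [e] at h3
        exact coprime_sub h3
    · exfalso
      have h2m : (2 : ℤ) ∣ m := by
        have : (2 : ℤ) ^ 2 ∣ m ^ 2 :=
          ⟨(2 * u1 + 9 * W ^ 2) * u1 * (u1 - 8 * W ^ 2), by rw [← hm]; ring⟩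
        exact (Int.pow_dvd_pow_iff two_ne_zero).mp this
      obtain ⟨m', rfl⟩ := h2m
      have hm' : (2 * u1 + 9 * W ^ 2) * u1 * (u1 - 8 * W ^ 2) = m' ^ 2 := by
        have : (4 : ℤ) * ((2 * u1 + 9 * W ^ 2) * u1 * (u1 - 8 * W ^ 2)) = 4 * m' ^ 2 := by
          linear_combination hm
        exact mul_left_cancel₀ (by norm_num) this
      have hz := congrArg (Int.cast : ℤ → ZMod 8) hm'
      push_cast at hz
      exact res2a (u1 : ZMod 8) (W : ZMod 8) (m' : ZMod 8) hz (four_ne_zero_of_odd h4)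
        (four_ne_zero_of_odd hW2)
  · refine ⟨1, u, u - 16 * W ^ 2, Or.inl rfl, by ring, by ring, ?_⟩
    have h1 : IsCoprime u 2 := coprime_of_not_dvd Int.prime_two h2
    have h3 : IsCoprime u (2 ^ 4 * W ^ 2) := h1.pow_right.mul_right hc.pow_right
    have e : (2 : ℤ) ^ 4 * W ^ 2 = 16 * W ^ 2 := by norm_num
    rw [e] at h3
    exact coprime_sub h3

theorem triple_sq {x y z m : ℤ} (h : x * y * z = m ^ 2) (hxy : IsCoprime x y)
    (hxz : IsCoprime x z) (hyz : IsCoprime y z) :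
    (∃ a : ℤ, x = a ^ 2 ∨ x = -a ^ 2) ∧ (∃ b : ℤ, y = b ^ 2 ∨ y = -b ^ 2) := by
  constructor
  · have hc : IsCoprime x (y * z) := hxy.mul_right hxz
    exact Int.sq_of_gcd_eq_one (Int.isCoprime_iff_gcd_eq_one.mp hc) (by rw [← h]; ring)
  · have hc : IsCoprime y (x * z) := hxy.symm.mul_right hyz
    exact Int.sq_of_gcd_eq_one (Int.isCoprime_iff_gcd_eq_one.mp hc) (by rw [← h]; ring)

theorem split_common {k k' x x' : ℤ} (hk' : k' ≠ 0) (hc : IsCoprime k' k)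
    (h : k * x = k' * x') : ∃ x1 : ℤ, x = k' * x1 ∧ x' = k * x1 := by
  have hd : k' ∣ x := hc.dvd_of_dvd_mul_left ⟨x', h⟩
  obtain ⟨x1, rfl⟩ := hd
  refine ⟨x1, rfl, ?_⟩
  have : k' * x' = k' * (k * x1) := by rw [← h]; ring
  exact mul_left_cancel₀ hk' this

theorem cop_3_5 {k3 k5 : ℤ} (h3 : k3 = 1 ∨ k3 = 9) (h5 : k5 = 1 ∨ k5 = 5 ∨ k5 = 25) :
    IsCoprime k5 k3 := by
  rw [Int.isCoprime_iff_gcd_eq_one]
  rcases h3 with rfl | rfl <;> rcases h5 with rfl | rfl | rfl <;> decide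

theorem cop_2_3 {k3 k2 : ℤ} (h3 : k3 = 1 ∨ k3 = 9) (h2 : k2 = 1 ∨ k2 = 4 ∨ k2 = 16) :
    IsCoprime k2 k3 := by
  rw [Int.isCoprime_iff_gcd_eq_one]
  rcases h3 with rfl | rfl <;> rcases h2 with rfl | rfl | rfl <;> decide

theorem cop_2_5 {k5 k2 : ℤ} (h5 : k5 = 1 ∨ k5 = 5 ∨ k5 = 25) (h2 : k2 = 1 ∨ k2 = 4 ∨ k2 = 16) :
    IsCoprime k2 k5 := by
  rw [Int.isCoprime_iff_gcd_eq_one]
  rcases h5 with rfl | rfl | rfl <;> rcases h2 with rfl | rfl | rfl <;> decide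

theorem E2_int (n W m : ℤ) (hc : IsCoprime n W)
    (hm : n * (n - 9 * W ^ 2) * (n - 25 * W ^ 2) = m ^ 2) :
    ∃ r s : ℤ, (n = r ^ 2 ∨ n = -r ^ 2 ∨ n = 5 * r ^ 2 ∨ n = -(5 * r ^ 2)) ∧
      (n - 9 * W ^ 2 = s ^ 2 ∨ n - 9 * W ^ 2 = -s ^ 2) := by
  obtain ⟨k3, x', y', hk3, hn3, hu3, hc3⟩ := step3 n W m hc hm
  obtain ⟨k5, x'', z', hk5, hn5, hv5, hc5⟩ := step5 n W hc
  have hcu : IsCoprime (n - 9 * W ^ 2) W := by
    have := hc.add_mul_left_left (-9 * W)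
    have e : n + W * (-9 * W) = n - 9 * W ^ 2 := by ring
    rw [e] at this
    exact this
  have hmu : ((n - 9 * W ^ 2) + 9 * W ^ 2) * (n - 9 * W ^ 2) * ((n - 9 * W ^ 2) - 16 * W ^ 2)
      = m ^ 2 := by rw [← hm]; ring
  obtain ⟨k2, y'', z'', hk2, hu2, hv2, hc2⟩ := step2 (n - 9 * W ^ 2) W m hcu hmu
  have hv2' : n - 25 * W ^ 2 = k2 * z'' := by rw [← hv2]; ring
  have hk3' : k3 ≠ 0 := by rcases hk3 with rfl | rfl <;> norm_num
  have hk5' : k5 ≠ 0 := by rcases hk5 with rfl | rfl | rfl <;> norm_num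
  have hk2' : k2 ≠ 0 := by rcases hk2 with rfl | rfl | rfl <;> norm_num
  obtain ⟨x1, hx1, hx1'⟩ := split_common hk5' (cop_3_5 hk3 hk5) (hn3.symm.trans hn5)
  obtain ⟨y1, hy1, hy1'⟩ := split_common hk2' (cop_2_3 hk3 hk2) (hu3.symm.trans hu2)
  obtain ⟨z1, hz1, hz1'⟩ := split_common hk2' (cop_2_5 hk5 hk2) (hv5.symm.trans hv2')
  subst hx1 hy1 hz1 hx1' hy1' hz1'
  have hxy : IsCoprime x1 y1 := hc3.of_mul_left_right.of_mul_right_right
  have hxz : IsCoprime x1 z1 := hc5.of_mul_left_right.of_mul_right_right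
  have hyz : IsCoprime y1 z1 := hc2.of_mul_left_right.of_mul_right_right
  have hKm : (k3 * k5 * k2) ∣ m := by
    have : (k3 * k5 * k2) ^ 2 ∣ m ^ 2 := ⟨x1 * y1 * z1, by
      linear_combination (-1 : ℤ) * hm + ((n - 9 * W ^ 2) * (n - 25 * W ^ 2)) * hn3
        + (k3 * (k5 * x1) * (n - 25 * W ^ 2)) * hu3
        + (k3 * (k5 * x1) * (k3 * (k2 * y1))) * hv5⟩
    exact (Int.pow_dvd_pow_iff two_ne_zero).mp this
  obtain ⟨m1, rfl⟩ := hKm
  have hK : (k3 * k5 * k2) ^ 2 ≠ 0 := pow_ne_zero 2 (mul_ne_zero (mul_ne_zero hk3' hk5') hk2')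
  have hprod : x1 * y1 * z1 = m1 ^ 2 := by
    have : (k3 * k5 * k2) ^ 2 * (x1 * y1 * z1) = (k3 * k5 * k2) ^ 2 * m1 ^ 2 := by
      linear_combination hm - ((n - 9 * W ^ 2) * (n - 25 * W ^ 2)) * hn3
        - (k3 * (k5 * x1) * (n - 25 * W ^ 2)) * hu3
        - (k3 * (k5 * x1) * (k3 * (k2 * y1))) * hv5
    exact mul_left_cancel₀ hK this
  obtain ⟨⟨a, ha⟩, ⟨b, hb⟩⟩ := triple_sq hprod hxy hxz hyz
  have e3 : ∃ j : ℤ, k3 = j ^ 2 := by
    rcases hk3 with rfl | rfl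
    · exact ⟨1, by norm_num⟩
    · exact ⟨3, by norm_num⟩
  have e2 : ∃ j : ℤ, k2 = j ^ 2 := by
    rcases hk2 with rfl | rfl | rfl
    · exact ⟨1, by norm_num⟩
    · exact ⟨2, by norm_num⟩
    · exact ⟨4, by norm_num⟩
  have e5 : ∃ j : ℤ, k5 = j ^ 2 ∨ k5 = 5 * j ^ 2 := by
    rcases hk5 with rfl | rfl | rfl
    · exact ⟨1, Or.inl (by norm_num)⟩
    · exact ⟨1, Or.inr (by norm_num)⟩
    · exact ⟨5, Or.inl (by norm_num)⟩
  obtain ⟨j3, rfl⟩ := e3
  obtain ⟨j2, rfl⟩ := e2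
  obtain ⟨j5, hj5⟩ := e5
  refine ⟨j3 * j5 * a, j3 * j2 * b, ?_, ?_⟩
  · rw [hn3]
    rcases hj5 with rfl | rfl <;> rcases ha with rfl | rfl
    · left; ring
    · right; left; ring
    · right; right; left; ring
    · right; right; right; ring
  · rw [hu3]
    rcases hb with rfl | rfl
    · left; ring
    · right; ring

theorem class3_id1 (a b c : ℚ) (h1 : 5 * a ^ 2 - 9 = b ^ 2) (h2 : a ^ 2 - 5 = c ^ 2) :
    (3 * (4 * a - b * c)) ^ 2 - 9 * (a ^ 2 - 9) ^ 2 = (6 * (a * c - b)) ^ 2 := by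
  grind

theorem class3_id2 (a b c : ℚ) (h1 : 5 * a ^ 2 - 9 = b ^ 2) (h2 : a ^ 2 - 5 = c ^ 2) :
    (3 * (4 * a - b * c)) ^ 2 - 25 * (a ^ 2 - 9) ^ 2 = (2 * (a * b - 9 * c)) ^ 2 := by
  grind

theorem class3_id3 (a b c : ℚ) (h1 : 5 * a ^ 2 - 9 = b ^ 2) (h2 : a ^ 2 - 5 = c ^ 2)
    (h3 : a * b = 9 * c) : 5 * (a ^ 2 - 9) ^ 2 = 0 := by
  grind

/-- class (iii): `5a² - 9 = b²`, `a² - 5 = c²` forces `a² = 9`. -/
theorem class3 (a b c : ℚ) (h1 : 5 * a ^ 2 - 9 = b ^ 2) (h2 : a ^ 2 - 5 = c ^ 2) :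
    a ^ 2 = 9 := by
  by_contra hne
  have hD : a ^ 2 - 9 ≠ 0 := fun h => hne (by linarith)
  have hz := E1 (3 * (4 * a - b * c) / (a ^ 2 - 9)) (6 * (a * c - b) / (a ^ 2 - 9))
    (2 * (a * b - 9 * c) / (a ^ 2 - 9))
    (by
      rw [div_pow, div_pow, ← class3_id1 a b c h1 h2]
      field_simp)
    (by
      rw [div_pow, div_pow, ← class3_id2 a b c h1 h2]
      field_simp)
  have h3 : a * b = 9 * c := by
    rcases div_eq_zero_iff.mp hz with h | h
    · linarith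
    · exact absurd h hD
  have h4 := class3_id3 a b c h1 h2 h3
  rcases mul_eq_zero.mp h4 with h | h
  · norm_num at h
  · exact hD (pow_eq_zero_iff two_ne_zero |>.mp h)

/-- Given the square classes, the points. -/
theorem points_of_classes (X Y a b : ℚ) (h : Y ^ 2 = X * (X - 9) * (X - 25)) (hY : Y ≠ 0)
    (ha : X = a ^ 2 ∨ X = 5 * a ^ 2) (hb : X - 9 = b ^ 2 ∨ X - 9 = -b ^ 2) :
    X = 45 ∨ X = 5 := by
  have hX0 : X ≠ 0 := by
    rintro rfl
    apply hY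
    have : Y ^ 2 = 0 := by rw [h]; ring
    exact pow_eq_zero_iff two_ne_zero |>.mp this
  have hX9 : X - 9 ≠ 0 := by
    intro h0
    apply hY
    have : Y ^ 2 = 0 := by rw [h, h0]; ring
    exact pow_eq_zero_iff two_ne_zero |>.mp this
  have ha0 : a ≠ 0 := by
    rintro rfl
    rcases ha with h | h <;> exact hX0 (by rw [h]; ring)
  have hb0 : b ≠ 0 := by
    rintro rfl
    rcases hb with h | h <;> exact hX9 (by rw [h]; ring)
  rcases ha with ha | ha <;> rcases hb with hb | hb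
  · -- class (i)
    exfalso
    have hz := E1 a b (Y / (a * b)) (by rw [← ha, ← hb]) (by
      rw [div_pow, h, mul_pow, ← ha, ← hb]
      field_simp)
    rcases div_eq_zero_iff.mp hz with h0 | h0
    · exact hY h0
    · exact mul_ne_zero ha0 hb0 h0
  · -- class (ii)
    exfalso
    have hb' : 9 - a ^ 2 = b ^ 2 := by rw [← ha]; linarith
    have hz : 25 - a ^ 2 = (Y / (a * b)) ^ 2 := by
      have hX9' : X - 9 = -b ^ 2 := hb
      rw [div_pow, h, mul_pow, ← ha]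
      have : b ^ 2 = -(X - 9) := by rw [hX9']; ring
      rw [this]
      field_simp
      ring
    have hz2 := E1 (15 / a) (3 * (Y / (a * b)) / a) (5 * b / a)
      (by
        rw [div_pow, div_pow, mul_pow, ← hz]
        field_simp
        ring)
      (by
        rw [div_pow, div_pow, mul_pow, ← hb']
        field_simp
        ring)
    rcases div_eq_zero_iff.mp hz2 with h0 | h0
    · exact hb0 (by linarith)
    · exact ha0 h0
  · -- class (iii)
    left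
    have hb' : 5 * a ^ 2 - 9 = b ^ 2 := by rw [← ha, ← hb]
    have hz : a ^ 2 - 5 = (Y / (5 * a * b)) ^ 2 := by
      rw [div_pow, h, mul_pow, mul_pow, ← hb]
      have : a ^ 2 = X / 5 := by rw [ha]; ring
      rw [this]
      field_simp
      ring
    have := class3 a b (Y / (5 * a * b)) hb' hz
    rw [ha, this]; norm_num
  · -- class (iv)
    right
    have hb' : 9 - 5 * a ^ 2 = b ^ 2 := by rw [← ha]; linarith
    have hz : 5 - a ^ 2 = (Y / (5 * a * b)) ^ 2 := by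
      have hX9' : X - 9 = -b ^ 2 := hb
      rw [div_pow, h, mul_pow, mul_pow]
      have e1 : b ^ 2 = -(X - 9) := by rw [hX9']; ring
      have e2 : a ^ 2 = X / 5 := by rw [ha]; ring
      rw [e1, e2]
      field_simp
      ring
    have h9 := class3 (3 / a) (3 * (Y / (5 * a * b)) / a) (b / a)
      (by
        rw [div_pow, div_pow, mul_pow, ← hz]
        field_simp
        ring)
      (by
        rw [div_pow, div_pow, ← hb']
        field_simp
        ring)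
    have ha2 : a ^ 2 = 1 := by
      rw [div_pow] at h9
      field_simp at h9
      linarith
    rw [ha, ha2]; norm_num

theorem sq_of_cube_sq {d r : ℕ} (hd : 0 < d) (h : d ^ 3 = r * r) : ∃ w : ℕ, d = w ^ 2 := by
  have h1 : d ^ 2 ∣ r ^ 2 := ⟨d, by rw [sq r, ← h]; ring⟩
  have h2 : d ∣ r := (Nat.pow_dvd_pow_iff two_ne_zero).mp h1
  obtain ⟨w, rfl⟩ := h2
  refine ⟨w, ?_⟩
  have hd2 : 0 < d ^ 2 := by positivity
  have : d ^ 2 * d = d ^ 2 * w ^ 2 := by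
    have e : d ^ 2 * d = d ^ 3 := by ring
    rw [e, h]; ring
  exact Nat.eq_of_mul_eq_mul_left hd2 this

theorem exists_int_model (X Y : ℚ) (h : Y ^ 2 = X * (X - 9) * (X - 25)) :
    ∃ n W m : ℤ, W ≠ 0 ∧ IsCoprime n W ∧ X = (n : ℚ) / (W : ℚ) ^ 2 ∧
      n * (n - 9 * W ^ 2) * (n - 25 * W ^ 2) = m ^ 2 := by
  have hdpos : 0 < X.den := X.pos
  have hXnd : X = (X.num : ℚ) / (X.den : ℚ) := (Rat.num_div_den X).symm
  have hcop : IsCoprime X.num (X.den : ℤ) := by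
    rw [Int.isCoprime_iff_gcd_eq_one]
    exact X.reduced
  have hcopN : IsCoprime (X.num * (X.num - 9 * X.den) * (X.num - 25 * X.den))
      ((X.den : ℤ) ^ 3) := by
    have h1 : IsCoprime (X.num - 9 * X.den) (X.den : ℤ) := by
      have := hcop.add_mul_left_left (-9)
      have e : X.num + (X.den : ℤ) * (-9) = X.num - 9 * X.den := by ring
      rw [e] at this
      exact this
    have h2 : IsCoprime (X.num - 25 * X.den) (X.den : ℤ) := by
      have := hcop.add_mul_left_left (-25)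
      have e : X.num + (X.den : ℤ) * (-25) = X.num - 25 * X.den := by ring
      rw [e] at this
      exact this
    exact ((hcop.mul_left h1).mul_left h2).pow_right
  have hdq : (X.den : ℚ) ≠ 0 := by exact_mod_cast hdpos.ne'
  have hq : Y ^ 2 = ((X.num * (X.num - 9 * X.den) * (X.num - 25 * X.den) : ℤ) : ℚ)
      / (((X.den : ℤ) ^ 3 : ℤ) : ℚ) := by
    rw [h]
    push_cast
    have e1 : X - 9 = ((X.num : ℚ) - 9 * X.den) / X.den := by
      rw [sub_div, mul_div_assoc, div_self hdq, mul_one, ← hXnd]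
    have e2 : X - 25 = ((X.num : ℚ) - 25 * X.den) / X.den := by
      rw [sub_div, mul_div_assoc, div_self hdq, mul_one, ← hXnd]
    rw [e1, e2]
    nth_rewrite 1 [hXnd]
    field_simp
  have hsq : IsSquare (((X.num * (X.num - 9 * X.den) * (X.num - 25 * X.den) : ℤ) : ℚ)
      / (((X.den : ℤ) ^ 3 : ℤ) : ℚ)) := ⟨Y, by rw [← hq]; ring⟩
  rw [Rat.isSquare_iff] at hsq
  have hd3pos : (0 : ℤ) < (X.den : ℤ) ^ 3 := by positivity
  have hnatcop : Nat.Coprime (X.num * (X.num - 9 * X.den) * (X.num - 25 * X.den)).natAbs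
      ((X.den : ℤ) ^ 3).natAbs := Int.isCoprime_iff_gcd_eq_one.mp hcopN
  rw [Rat.num_div_eq_of_coprime hd3pos hnatcop] at hsq
  have hden : (((X.num * (X.num - 9 * X.den) * (X.num - 25 * X.den) : ℤ) : ℚ)
      / (((X.den : ℤ) ^ 3 : ℤ) : ℚ)).den = X.den ^ 3 := by
    have := Rat.den_div_eq_of_coprime hd3pos hnatcop
    exact_mod_cast this
  rw [hden] at hsq
  obtain ⟨⟨m, hm⟩, ⟨r, hr⟩⟩ := hsq
  obtain ⟨w, hw⟩ := sq_of_cube_sq hdpos hr
  have hw0 : w ≠ 0 := by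
    rintro rfl
    simp at hw
  refine ⟨X.num, (w : ℤ), m, by exact_mod_cast hw0, ?_, ?_, ?_⟩
  · have : IsCoprime X.num ((w : ℤ) ^ 2) := by
      have e : ((w : ℤ) ^ 2) = (X.den : ℤ) := by exact_mod_cast hw.symm
      rw [e]; exact hcop
    exact (IsCoprime.pow_right_iff (by norm_num)).mp this
  · have e : ((w : ℚ) ^ 2) = (X.den : ℚ) := by exact_mod_cast hw.symm
    rw [Int.cast_natCast, e]
    exact hXnd
  · have e : ((w : ℤ) ^ 2) = (X.den : ℤ) := by exact_mod_cast hw.symm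
    rw [e, hm]; ring

theorem E2 (X Y : ℚ) (h : Y ^ 2 = X * (X - 9) * (X - 25)) (hY : Y ≠ 0) :
    ∃ a b : ℚ, (X = a ^ 2 ∨ X = 5 * a ^ 2) ∧ (X - 9 = b ^ 2 ∨ X - 9 = -b ^ 2) := by
  obtain ⟨n, W, m, hW, hc, hX, hm⟩ := exists_int_model X Y h
  obtain ⟨r, s, hr, hs⟩ := E2_int n W m hc hm
  have hWq : (W : ℚ) ≠ 0 := by exact_mod_cast hW
  have hW2 : (0 : ℚ) < (W : ℚ) ^ 2 := by positivity
  have hXpos : 0 < X := by
    by_contra hneg
    have hX0 : X ≤ 0 := not_lt.mp hneg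
    have h1 : 0 < Y ^ 2 := by positivity
    have h2 : 0 < (X - 9) * (X - 25) := mul_pos_of_neg_of_neg (by linarith) (by linarith)
    have h3 : X * ((X - 9) * (X - 25)) ≤ 0 := mul_nonpos_of_nonpos_of_nonneg hX0 h2.le
    rw [h, mul_assoc] at h1
    linarith
  have hnpos : (0 : ℚ) < (n : ℚ) := by
    rw [hX] at hXpos
    exact (div_pos_iff_of_pos_right hW2).mp hXpos
  have hX9 : X - 9 = ((n - 9 * W ^ 2 : ℤ) : ℚ) / (W : ℚ) ^ 2 := by
    rw [hX]; push_cast; field_simp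
  refine ⟨r / W, s / W, ?_, ?_⟩
  · have hr2 : (0 : ℚ) ≤ (r : ℚ) ^ 2 := by positivity
    rcases hr with hr | hr | hr | hr
    · left
      rw [hX, hr]; push_cast; rw [div_pow]
    · exfalso
      have : (n : ℚ) = -(r : ℚ) ^ 2 := by exact_mod_cast hr
      linarith
    · right
      rw [hX, hr]; push_cast; rw [div_pow]; ring
    · exfalso
      have : (n : ℚ) = -(5 * (r : ℚ) ^ 2) := by exact_mod_cast hr
      linarith
  · rcases hs with hs | hs
    · left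
      rw [hX9, hs]; push_cast; rw [div_pow]
    · right
      rw [hX9, hs]; push_cast; rw [div_pow]; ring

/-- All rational points of `Y² = X (X - 9) (X - 25)`. -/
theorem points (X Y : ℚ) (h : Y ^ 2 = X * (X - 9) * (X - 25)) :
    X = 0 ∨ X = 9 ∨ X = 25 ∨ X = 45 ∨ X = 5 := by
  by_cases hY : Y = 0
  · subst hY
    have h0 : X * (X - 9) * (X - 25) = 0 := by rw [← h]; ring
    rcases mul_eq_zero.mp h0 with h1 | h1
    · rcases mul_eq_zero.mp h1 with h2 | h2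
      · exact Or.inl h2
      · exact Or.inr (Or.inl (by linarith))
    · exact Or.inr (Or.inr (Or.inl (by linarith)))
  · obtain ⟨a, b, ha, hb⟩ := E2 X Y h hY
    rcases points_of_classes X Y a b h hY ha hb with h1 | h1
    · exact Or.inr (Or.inr (Or.inr (Or.inl h1)))
    · exact Or.inr (Or.inr (Or.inr (Or.inr h1)))

/-- All rational points of `v² = M (1 - M) (25 - 9 M)` (a model of the curve 15a). -/
theorem rat_points (M v : ℚ) (h : v ^ 2 = M * (1 - M) * (25 - 9 * M)) :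
    M = 0 ∨ M = 1 ∨ M = 25 / 9 ∨ M = 5 ∨ M = 5 / 9 := by
  have h1 : (9 * v) ^ 2 = (9 * M) * (9 * M - 9) * (9 * M - 25) := by
    linear_combination 81 * h
  rcases points (9 * M) (9 * v) h1 with h2 | h2 | h2 | h2 | h2
  · exact Or.inl (by linarith)
  · exact Or.inr (Or.inl (by linarith))
  · exact Or.inr (Or.inr (Or.inl (by linarith)))
  · exact Or.inr (Or.inr (Or.inr (Or.inl (by linarith))))
  · exact Or.inr (Or.inr (Or.inr (Or.inr (by linarith))))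

end Fermat.Agent.S51.X15
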